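/-
Program B' (S34), package L1-disc (helper64): "exactly two extensions" of a discrete valuation
ring in an extension of degree `q + 1`.  STATEMENT (Mathlib only).

`V` a discrete valuation subring of `K` of residue characteristic `q`, `L/K` finite of degree
`q + 1` (characteristic zero), `O₁ ≠ O₂` two valuation subrings of `L` lying over `V`, and an
element `y ∈ O₂` whose residue class is not in the residue field of `V` but whose `q`-th power is
(so `f(O₂ | V) ≥ q`).  Then `∑ e f = q + 1` forces:
* `O₁`, `O₂` are the only valuation subrings of `L` over `V`;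
* the integral closure of `V` in `L` is `O₁ ∩ O₂`;
* `e = 1` for both: a uniformiser of `V` generates both maximal ideals;
* `f(O₁ | V) = 1`: every element of `O₁` is congruent to an element of `V`.
-/
import Mathlib

set_option autoImplicit false

namespace Fermat.Agent.S34.H64

/-- Conclusions of the two-extension lemma. -/
structure TwoExt {K L : Type*} [Field K] [Field L] [Algebra K L] (V : ValuationSubring K)
    (O₁ O₂ : ValuationSubring L) : Prop where
  /-- `O₁` and `O₂` are the only extensions of `V`. -/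
  only : ∀ O' : ValuationSubring L, O'.comap (algebraMap K L) = V → O' = O₁ ∨ O' = O₂
  /-- the integral closure of `V` in `L` is `O₁ ∩ O₂`. -/
  integral_iff : ∀ g : L, IsIntegral V g ↔ g ∈ O₁ ∧ g ∈ O₂
  /-- `e(O₁ | V) = 1`. -/
  unif₁ : ∀ π : K, π ∈ V.nonunits → (∀ a ∈ V.nonunits, a / π ∈ V) →
    ∀ g ∈ O₁.nonunits, g / algebraMap K L π ∈ O₁
  /-- `e(O₂ | V) = 1`. -/
  unif₂ : ∀ π : K, π ∈ V.nonunits → (∀ a ∈ V.nonunits, a / π ∈ V) →
    ∀ g ∈ O₂.nonunits, g / algebraMap K L π ∈ O₂
  /-- `f(O₁ | V) = 1`. -/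
  res₁ : ∀ g ∈ O₁, ∃ v ∈ V, g - algebraMap K L v ∈ O₁.nonunits

/-- **The two-extension lemma.** -/
def TwoExtStatement.{u, v} : Prop :=
  ∀ (K : Type u) (L : Type v) [Field K] [Field L] [Algebra K L] [FiniteDimensional K L]
    [CharZero K] (V : ValuationSubring K) [IsDiscreteValuationRing V] (q : ℕ), q.Prime →
    (q : K) ∈ V.nonunits → Module.finrank K L = q + 1 →
    ∀ O₁ O₂ : ValuationSubring L, O₁.comap (algebraMap K L) = V → O₂.comap (algebraMap K L) = V →
      O₁ ≠ O₂ →
      ∀ y ∈ O₂, (∃ v ∈ V, y ^ q - algebraMap K L v ∈ O₂.nonunits) →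
        (∀ v ∈ V, y - algebraMap K L v ∉ O₂.nonunits) → TwoExt V O₁ O₂

end Fermat.Agent.S34.H64
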