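/-
Program B' (S34), package L1 (helper64): the two Gauss rings of `F_{Mq}` at a prime `A ∣ q`,
`q ∤ M`.  STATEMENTS.

`F_N = modularFunctionFieldBar N ⊆ ℚ̄((q))`; `α = heckeAlphaBar Kb M q` (the inclusion),
`β = heckeBetaBar Kb M q` (`q ↦ q^q`), both `F_M → F_{Mq}`; `O_M = H66.gaussO A M` the Gauss ring
of `F_M` (good reduction, landed); the Galois action is the Prelude `arithmeticRingAut`
(coefficientwise on `q`-expansions).

`TwoGaussStatement`: there are a valuation subring `O₁` of `F_{Mq}` (the `q`-expansion Gauss ring;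
the second one is `O₂ = w⁻¹ O₁`) and the Atkin–Lehner automorphism `w` such that
* (W) `w ∘ w = id`, `w` fixes `ℚ̄`, `w ∘ α = β`, `w ∘ β = α`, `w` commutes with Galois;
* (C) `O₁ ∩ ℚ̄ = A`, and the value group of `O₁` is that of `A`;
* (R) `O₁ ∩ α(F_M) = α(O_M)` and `O₁ ∩ β(F_M) = β(O_M)`;
* (K) Kronecker: `β f ≡ α(s⁻¹ f)^q` modulo `m_{O₁}` for `f ∈ O_M`, `s` a Frobenius at `A`;
* (G) the decomposition group of `A` preserves `O₁`, and inertia acts trivially on its residue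
  field;
* (I) `j` is not congruent modulo `m_{O₁}` to an element of `β(O_M)` (with (K): the residue field
  of `O₁` is inseparable of degree `≥ q` over that of `β(O_M)`).
-/
import Mathlib
import Fermat.Agent.S37.H65.Conj.KronField
import Fermat.Agent.S24.ModDefs

set_option autoImplicit false

noncomputable section

namespace Fermat.Agent.S34.H64

open ModularCurve AlgebraicCurve Fermat.Agent.S18.H66

/-- The properties of the pair `(O₁, w)`. -/
structure TwoGauss (M q : ℕ) [NeZero M] [Fact q.Prime] (hqM : ¬ q ∣ M) (A : ValuationSubring Kb)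
    (hA : A.LiesOverPrime q) (O₁ : ValuationSubring ↥(modularFunctionFieldBar (M * q)))
    (w : ↥(modularFunctionFieldBar (M * q)) ≃+* ↥(modularFunctionFieldBar (M * q))) : Prop where
  /-- `w ∘ w = id`. -/
  w_w : ∀ g, w (w g) = g
  /-- `w` fixes `ℚ̄`. -/
  w_algebraMap : ∀ a : Kb, w (algebraMap Kb ↥(modularFunctionFieldBar (M * q)) a) =
    algebraMap Kb ↥(modularFunctionFieldBar (M * q)) a
  /-- `w ∘ α = β`. -/
  w_alpha : ∀ f, w (heckeAlphaBar Kb M q f) = heckeBetaBar Kb M q f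
  /-- `w ∘ β = α`. -/
  w_beta : ∀ f, w (heckeBetaBar Kb M q f) = heckeAlphaBar Kb M q f
  /-- `w` commutes with the Galois action. -/
  w_galois : ∀ (σ : Kb ≃ₐ[ℚ] Kb) g,
    w (arithmeticRingAut (modularFunctionFieldFull (M * q)) σ g) =
      arithmeticRingAut (modularFunctionFieldFull (M * q)) σ (w g)
  /-- `O₁ ∩ ℚ̄ = A`. -/
  algebraMap_mem_iff : ∀ a : Kb, algebraMap Kb ↥(modularFunctionFieldBar (M * q)) a ∈ O₁ ↔ a ∈ A
  /-- the value group of `O₁` is that of `A`. -/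
  scale : ∀ g : ↥(modularFunctionFieldBar (M * q)), g ≠ 0 → ∃ c : Kb, c ≠ 0 ∧
    algebraMap Kb ↥(modularFunctionFieldBar (M * q)) c * g ∈ O₁ ∧
    (algebraMap Kb ↥(modularFunctionFieldBar (M * q)) c * g)⁻¹ ∈ O₁
  /-- `O₁ ∩ α(F_M) = α(O_M)`. -/
  alpha_mem_iff : ∀ f, heckeAlphaBar Kb M q f ∈ O₁ ↔ f ∈ gaussO A M hA hqM
  /-- `O₁ ∩ β(F_M) = β(O_M)`. -/
  beta_mem_iff : ∀ f, heckeBetaBar Kb M q f ∈ O₁ ↔ f ∈ gaussO A M hA hqM
  /-- Kronecker: `β f ≡ α(s⁻¹ f)^q` modulo `m_{O₁}`. -/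
  kronecker : ∀ s : Kb ≃ₐ[ℚ] Kb, A.IsFrobeniusAt s q → ∀ f ∈ gaussO A M hA hqM,
    heckeBetaBar Kb M q f -
      heckeAlphaBar Kb M q (arithmeticRingAut (modularFunctionFieldFull M) s⁻¹ f) ^ q ∈ O₁.nonunits
  /-- the decomposition group preserves `O₁`. -/
  galois_mem : ∀ σ ∈ A.decompositionSubgroup ℚ, ∀ g ∈ O₁,
    arithmeticRingAut (modularFunctionFieldFull (M * q)) σ g ∈ O₁
  /-- inertia acts trivially on the residue field of `O₁`. -/
  inertia_sub_mem : ∀ σ ∈ A.inertiaSubgroupIn ℚ, ∀ g ∈ O₁,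
    arithmeticRingAut (modularFunctionFieldFull (M * q)) σ g - g ∈ O₁.nonunits
  /-- `j` is not congruent to an element of `β(O_M)`. -/
  j_sub_beta_not_mem : ∀ f ∈ gaussO A M hA hqM,
    heckeAlphaBar Kb M q (Fermat.Agent.S24.jgen M) - heckeBetaBar Kb M q f ∉ O₁.nonunits

/-- **Package L1**: the two Gauss rings of `F_{Mq}` at `q`. -/
def TwoGaussStatement : Prop :=
  ∀ (M q : ℕ) [NeZero M] [Fact q.Prime] (hqM : ¬ q ∣ M) (A : ValuationSubring Kb)
    (hA : A.LiesOverPrime q),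
    ∃ (O₁ : ValuationSubring ↥(modularFunctionFieldBar (M * q)))
      (w : ↥(modularFunctionFieldBar (M * q)) ≃+* ↥(modularFunctionFieldBar (M * q))),
      TwoGauss M q hqM A hA O₁ w

end Fermat.Agent.S34.H64
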