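/-
Program B' (S34), package L1 (helper64): the two Gauss rings of `F_{Mq}` at a prime `A ∣ q`,
`q ∤ M`.  PROOF of `TwoGaussStatement`.

`O₁ = gaussQ A hA (M * q)` is the `q`-expansion Gauss ring (helper21's `H21.gaussFN`, which exists
at every level, with no coprimality hypothesis); for levels prime to the residue characteristic it
is the landed `H66.gaussO` (`gaussQ_eq_gaussO`).
-/
import Mathlib
import Fermat.Agent.S34.H64.TwoGaussDefs
import Fermat.Agent.S18.H21.GaussRingFN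
import Fermat.Agent.S29.H64.AtkinLehner

set_option autoImplicit false
set_option linter.style.haveILetI false
set_option linter.unusedSectionVars false

noncomputable section

namespace Fermat.Agent.S34.H64

open ModularCurve AlgebraicCurve Fermat.Agent.S18.H66 Fermat.Agent.S37.H65

section GaussQ

variable (A : ValuationSubring Kb) {ℓ : ℕ} [Fact ℓ.Prime] (hA : A.LiesOverPrime ℓ) (N : ℕ)

/-- The `q`-expansion Gauss ring of `F_N`, at a prime of arbitrary residue characteristic. -/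
def gaussQ : ValuationSubring ↥(modularFunctionFieldBar N) :=
  Fermat.Agent.S18.H21.gaussFN A hA N

theorem mem_gaussQ_iff (f : ↥(modularFunctionFieldBar N)) :
    f ∈ gaussQ A hA N ↔ ∃ y₁ y₂ : LaurentSeries A, redA A y₂ ≠ 0 ∧
      (f : LaurentSeries Kb) * incl A y₂ = incl A y₁ :=
  Iff.rfl

theorem mem_nonunits_gaussQ_iff (f : ↥(modularFunctionFieldBar N)) :
    f ∈ (gaussQ A hA N).nonunits ↔ ∃ y₁ y₂ : LaurentSeries A, redA A y₂ ≠ 0 ∧ redA A y₁ = 0 ∧
      (f : LaurentSeries Kb) * incl A y₂ = incl A y₁ :=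
  Fermat.Agent.S18.H21.mem_nonunits_gaussFN_iff A hA N f

theorem algebraMap_mem_gaussQ_iff (a : Kb) :
    algebraMap Kb ↥(modularFunctionFieldBar N) a ∈ gaussQ A hA N ↔ a ∈ A :=
  Fermat.Agent.S18.H21.algebraMap_mem_gaussFN_iff A hA N a

theorem gaussQ_scale (f : ↥(modularFunctionFieldBar N)) (hf : f ≠ 0) :
    ∃ c : Kb, c ≠ 0 ∧ algebraMap Kb ↥(modularFunctionFieldBar N) c * f ∈ gaussQ A hA N ∧
      (algebraMap Kb ↥(modularFunctionFieldBar N) c * f)⁻¹ ∈ gaussQ A hA N :=
  Fermat.Agent.S18.H21.gaussFN_scale A hA N f hf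

/-- In a valuation ring, `f ∈ O`, `f ≠ 0` implies that `f⁻¹` is not in the maximal ideal. -/
theorem inv_not_mem_nonunits {F : Type*} [Field F] (O : ValuationSubring F) {f : F} (hf : f ∈ O)
    (hf0 : f ≠ 0) : f⁻¹ ∉ O.nonunits := by
  intro h
  rcases O.mem_nonunits_iff_or.mp h with h1 | h1
  · exact hf0 (inv_eq_zero.mp h1)
  · exact h1 (by rwa [inv_inv])

/-- Two valuation subrings, one contained in the other and with the smaller maximal ideal
contained in the bigger one, are equal. -/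
theorem valuationSubring_eq_of_nonunits_le {F : Type*} [Field F] (O O' : ValuationSubring F)
    (h : ∀ f, f ∈ O.nonunits → f ∈ O'.nonunits) : O' ≤ O := by
  intro f hf
  by_contra hfO
  have hf0 : f ≠ 0 := fun h0 => hfO (h0 ▸ O.zero_mem)
  have h1 : f⁻¹ ∈ O.nonunits := O.mem_nonunits_iff_or.mpr (Or.inr (by rwa [inv_inv]))
  exact inv_not_mem_nonunits O' hf hf0 (h _ h1)

variable [NeZero N]

/-- At levels prime to the residue characteristic, `gaussQ` is the landed Gauss ring. -/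
theorem gaussQ_eq_gaussO (hℓN : ¬ ℓ ∣ N) : gaussQ A hA N = gaussO A N hA hℓN := by
  apply le_antisymm
  · apply valuationSubring_eq_of_nonunits_le
    intro f hf
    obtain ⟨y₁, y₂, hy₁, hy, -, hfy⟩ := (mem_nonunits_gaussO_iff A N hA hℓN f).mp hf
    exact (mem_nonunits_gaussQ_iff A hA N f).mpr ⟨y₁, y₂, hy, hy₁, hfy⟩
  · intro f hf
    obtain ⟨y₁, y₂, hy, -, hfy⟩ := (mem_gaussO_iff A N hA hℓN f).mp hf
    exact (mem_gaussQ_iff A hA N f).mpr ⟨y₁, y₂, hy, hfy⟩

end GaussQ

section Restrict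

variable (A : ValuationSubring Kb) {ℓ : ℕ} [Fact ℓ.Prime] (hA : A.LiesOverPrime ℓ)
  (N p : ℕ) [NeZero N] [NeZero p]

/-- `O_{Np} ∩ α(F_N) = α(O_N)` for the `q`-expansion Gauss rings. -/
theorem alpha_mem_gaussQ_iff (f : ↥(modularFunctionFieldBar N)) :
    heckeAlphaBar Kb N p f ∈ gaussQ A hA (N * p) ↔ f ∈ gaussQ A hA N := by
  rw [mem_gaussQ_iff, mem_gaussQ_iff, coe_heckeAlphaBar]

theorem alpha_mem_nonunits_gaussQ_iff (f : ↥(modularFunctionFieldBar N)) :
    heckeAlphaBar Kb N p f ∈ (gaussQ A hA (N * p)).nonunits ↔ f ∈ (gaussQ A hA N).nonunits := by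
  rw [mem_nonunits_gaussQ_iff, mem_nonunits_gaussQ_iff, coe_heckeAlphaBar]

/-- `β` maps the maximal ideal of `O_N` into that of `O_{Np}`. -/
theorem beta_mem_nonunits_gaussQ {f : ↥(modularFunctionFieldBar N)}
    (hf : f ∈ (gaussQ A hA N).nonunits) :
    heckeBetaBar Kb N p f ∈ (gaussQ A hA (N * p)).nonunits := by
  obtain ⟨y₁, y₂, hy, hy₁, hfy⟩ := (mem_nonunits_gaussQ_iff A hA N f).mp hf
  refine (mem_nonunits_gaussQ_iff A hA (N * p) _).mpr
    ⟨qExpand A p y₁, qExpand A p y₂, ?_, ?_, ?_⟩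
  · rw [coeffMap_qExpand]
    intro h
    apply hy
    apply qExpand_injective p
    rw [h, map_zero]
  · rw [coeffMap_qExpand, hy₁, map_zero]
  · rw [coe_heckeBetaBar, coeffMap_qExpand, coeffMap_qExpand, ← map_mul, hfy]

/-- `β` maps `O_N` into `O_{Np}`. -/
theorem beta_mem_gaussQ {f : ↥(modularFunctionFieldBar N)} (hf : f ∈ gaussQ A hA N) :
    heckeBetaBar Kb N p f ∈ gaussQ A hA (N * p) := by
  obtain ⟨y₁, y₂, hy, hfy⟩ := (mem_gaussQ_iff A hA N f).mp hf
  refine (mem_gaussQ_iff A hA (N * p) _).mpr ⟨qExpand A p y₁, qExpand A p y₂, ?_, ?_⟩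
  · rw [coeffMap_qExpand]
    intro h
    apply hy
    apply qExpand_injective p
    rw [h, map_zero]
  · rw [coe_heckeBetaBar, coeffMap_qExpand, coeffMap_qExpand, ← map_mul, hfy]

/-- `O_{Np} ∩ β(F_N) = β(O_N)` for the `q`-expansion Gauss rings. -/
theorem beta_mem_gaussQ_iff (f : ↥(modularFunctionFieldBar N)) :
    heckeBetaBar Kb N p f ∈ gaussQ A hA (N * p) ↔ f ∈ gaussQ A hA N := by
  refine ⟨fun hf => ?_, beta_mem_gaussQ A hA N p⟩
  by_contra hfO
  have hf0 : f ≠ 0 := fun h0 => hfO (h0 ▸ (gaussQ A hA N).zero_mem)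
  have h1 : f⁻¹ ∈ (gaussQ A hA N).nonunits :=
    (gaussQ A hA N).mem_nonunits_iff_or.mpr (Or.inr (by rwa [inv_inv]))
  have h2 := beta_mem_nonunits_gaussQ A hA N p h1
  rw [map_inv₀] at h2
  exact inv_not_mem_nonunits _ hf ((map_ne_zero _).mpr hf0) h2

end Restrict

section Galois

variable (A : ValuationSubring Kb) {ℓ : ℕ} [Fact ℓ.Prime] (hA : A.LiesOverPrime ℓ)
  (N : ℕ) [NeZero N]

/-- The decomposition group preserves the `q`-expansion Gauss ring. -/
theorem galois_mem_gaussQ (g : A.decompositionSubgroup ℚ) {c : ↥(modularFunctionFieldBar N)}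
    (hc : c ∈ gaussQ A hA N) :
    arithmeticRingAut (modularFunctionFieldFull N) (g : Kb ≃ₐ[ℚ] Kb) c ∈ gaussQ A hA N := by
  obtain ⟨y₁, y₂, hy, hfy⟩ := (mem_gaussQ_iff A hA N c).mp hc
  exact (mem_gaussQ_iff A hA N _).mpr ⟨galA A g y₁, galA A g y₂, redA_galA_ne_zero A g hy,
    galois_presentation A N g hfy⟩

/-- Inertia acts trivially modulo the maximal ideal of the `q`-expansion Gauss ring. -/
theorem inertia_sub_mem_nonunits_gaussQ {σ : Kb ≃ₐ[ℚ] Kb} (hσ : σ ∈ A.inertiaSubgroupIn ℚ)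
    {c : ↥(modularFunctionFieldBar N)} (hc : c ∈ gaussQ A hA N) :
    arithmeticRingAut (modularFunctionFieldFull N) σ c - c ∈ (gaussQ A hA N).nonunits := by
  obtain ⟨g, hg, rfl⟩ := hσ
  show arithmeticRingAut (modularFunctionFieldFull N) (g : Kb ≃ₐ[ℚ] Kb) c - c ∈
    (gaussQ A hA N).nonunits
  have hK : actK A g = RingHom.id _ := by
    have h1 : MulSemiringAction.toRingAut (A.decompositionSubgroup ℚ)
        (IsLocalRing.ResidueField A) g = 1 := MonoidHom.mem_ker.mp hg
    ext x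
    exact congrArg (fun e : RingAut (IsLocalRing.ResidueField A) => e x) h1
  obtain ⟨y₁, y₂, hy, hfy⟩ := (mem_gaussQ_iff A hA N c).mp hc
  have h1 := galois_presentation A N g hfy
  refine (mem_nonunits_gaussQ_iff A hA N _).mpr
    ⟨galA A g y₁ * y₂ - y₁ * galA A g y₂, galA A g y₂ * y₂, ?_, ?_, ?_⟩
  · show redA A (galA A g y₂ * y₂) ≠ 0
    rw [map_mul]
    exact mul_ne_zero (redA_galA_ne_zero A g hy) hy
  · have e : ∀ y : LaurentSeries A, redA A (galA A g y) = redA A y := by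
      intro y
      rw [redA_galA, hK, coeffMap_id]
    show redA A (galA A g y₁ * y₂ - y₁ * galA A g y₂) = 0
    rw [map_sub, map_mul, map_mul, e, e, sub_self]
  · show ((arithmeticRingAut (modularFunctionFieldFull N) (g : Kb ≃ₐ[ℚ] Kb) c
        - c : ↥(modularFunctionFieldBar N)) : LaurentSeries Kb) * incl A (galA A g y₂ * y₂) =
      incl A (galA A g y₁ * y₂ - y₁ * galA A g y₂)
    rw [map_sub, map_mul, map_mul, map_mul, ← h1, ← hfy, AddSubgroupClass.coe_sub]
    show (_ - _) * _ = _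
    ring

/-- **Kronecker congruence at the prime dividing the level**: `β f ≡ α(s⁻¹ f)^ℓ` modulo the
maximal ideal of the `q`-expansion Gauss ring of `F_{Nℓ}`, for a Frobenius `s` at `A`. -/
theorem kronecker_gaussQ {s : Kb ≃ₐ[ℚ] Kb} (hs : A.IsFrobeniusAt s ℓ)
    {f : ↥(modularFunctionFieldBar N)} (hf : f ∈ gaussQ A hA N) :
    heckeBetaBar Kb N ℓ f -
        heckeAlphaBar Kb N ℓ (arithmeticRingAut (modularFunctionFieldFull N) s⁻¹ f) ^ ℓ ∈
      (gaussQ A hA (N * ℓ)).nonunits := by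
  haveI := charP_residueField A hA
  obtain ⟨y₁, y₂, hy, hfy⟩ := (mem_gaussQ_iff A hA N f).mp hf
  set g : A.decompositionSubgroup ℚ := ⟨s, hs.mem_decompositionSubgroup⟩ with hg
  have hfrob : actK A g = frobenius (IsLocalRing.ResidueField A) ℓ :=
    RingHom.ext fun x => by
      rw [frobenius_def]
      exact hs.smul_residue_eq x
  have hg2 := galois_presentation A N g⁻¹ hfy
  have hred : ∀ y : LaurentSeries A,
      redA A (galA A g⁻¹ y ^ ℓ) = qExpand _ ℓ (redA A y) := by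
    intro y
    rw [map_pow, pow_char_eq_qExpand ℓ]
    congr 1
    rw [← hfrob, redA_galA, coeffMap_coeffMap, actK_comp_actK_inv, coeffMap_id]
  have hredQ : ∀ y : LaurentSeries A, redA A (qExpand A ℓ y) = qExpand _ ℓ (redA A y) :=
    fun y => coeffMap_qExpand _ _ _
  have hQ0 : redA A (qExpand A ℓ y₂) ≠ 0 := by
    rw [hredQ]
    intro h
    apply hy
    apply qExpand_injective ℓ
    rw [h, map_zero]
  refine (mem_nonunits_gaussQ_iff A hA (N * ℓ) _).mpr
    ⟨qExpand A ℓ y₁ * galA A g⁻¹ y₂ ^ ℓ - galA A g⁻¹ y₁ ^ ℓ * qExpand A ℓ y₂,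
      qExpand A ℓ y₂ * galA A g⁻¹ y₂ ^ ℓ, ?_, ?_, ?_⟩
  · rw [map_mul, hred, ← hredQ]
    exact mul_ne_zero hQ0 hQ0
  · rw [map_sub, map_mul, map_mul, hred, hred, hredQ, hredQ, mul_comm, sub_self]
  · have e1 : qExpand Kb ℓ (f : LaurentSeries Kb) * incl A (qExpand A ℓ y₂) =
        incl A (qExpand A ℓ y₁) := by
      rw [coeffMap_qExpand, coeffMap_qExpand, ← map_mul, hfy]
    have e2 : ((arithmeticRingAut (modularFunctionFieldFull N) s⁻¹ f :
        ↥(modularFunctionFieldBar N)) : LaurentSeries Kb) ^ ℓ * incl A (galA A g⁻¹ y₂) ^ ℓ =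
        incl A (galA A g⁻¹ y₁) ^ ℓ := by
      rw [← mul_pow]
      exact congrArg (· ^ ℓ) hg2
    rw [AddSubgroupClass.coe_sub, SubmonoidClass.coe_pow, coe_heckeBetaBar, coe_heckeAlphaBar,
      map_sub, map_mul, map_mul, map_mul, map_pow, map_pow]
    linear_combination (incl A (galA A g⁻¹ y₂) ^ ℓ) * e1 - (incl A (qExpand A ℓ y₂)) * e2

end Galois

section Insep

variable (A : ValuationSubring Kb) {ℓ : ℕ} [Fact ℓ.Prime] (hA : A.LiesOverPrime ℓ)
  (N p : ℕ) [NeZero N] [NeZero p]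

theorem coe_jgen : ((Fermat.Agent.S24.jgen N : ↥(modularFunctionFieldBar N)) : LaurentSeries Kb) =
    incl A (jqNModC A 1) := by
  have h1 : ((Fermat.Agent.S24.jgen N : ↥(modularFunctionFieldBar N)) : LaurentSeries Kb) =
      coeffEmb Kb (qExpand ℚ 1 jq) := rfl
  rw [h1, coeffEmb_qExpand_jq 1]
  exact (coeffMap_jqNModC A.subtype 1).symm

/-- `j` is not congruent, modulo the maximal ideal of the `q`-expansion Gauss ring of `F_{Np}`
(`p ≥ 2`), to an element of `β(O_N)`: its reduction has a nonzero coefficient at `q⁻¹`. -/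
theorem j_sub_beta_not_mem_nonunits (hp : 2 ≤ p) {f : ↥(modularFunctionFieldBar N)}
    (hf : f ∈ gaussQ A hA N) :
    heckeAlphaBar Kb N p (Fermat.Agent.S24.jgen N) - heckeBetaBar Kb N p f ∉
      (gaussQ A hA (N * p)).nonunits := by
  intro h
  obtain ⟨y₁, y₂, hy, hfy⟩ := (mem_gaussQ_iff A hA N f).mp hf
  obtain ⟨z₁, z₂, hz, hz₁, hfz⟩ := (mem_nonunits_gaussQ_iff A hA (N * p) _).mp h
  rw [AddSubgroupClass.coe_sub, coe_heckeBetaBar, coe_heckeAlphaBar, coe_jgen A N] at hfz
  have e1 : qExpand Kb p (f : LaurentSeries Kb) * incl A (qExpand A p y₂) =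
      incl A (qExpand A p y₁) := by
    rw [coeffMap_qExpand, coeffMap_qExpand, ← map_mul, hfy]
  -- cross-multiply the two presentations
  have hcross : (jqNModC A 1 * qExpand A p y₂ - qExpand A p y₁) * z₂ = z₁ * qExpand A p y₂ := by
    apply incl_injective A
    rw [map_mul, map_sub, map_mul, map_mul]
    linear_combination (incl A (qExpand A p y₂)) * hfz + (incl A z₂) * e1
  have hred := congrArg (redA A) hcross
  rw [map_mul, map_mul, hz₁, zero_mul, map_sub, map_mul] at hred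
  have h0 : redA A (jqNModC A 1) * redA A (qExpand A p y₂) - redA A (qExpand A p y₁) = 0 :=
    (mul_eq_zero.mp hred).resolve_right hz
  have hJ : redA A (jqNModC A 1) = jqModC (IsLocalRing.ResidueField A) := by
    rw [show redA A (jqNModC A 1) = jqNModC (IsLocalRing.ResidueField A) 1 from
      coeffMap_jqNModC _ 1, jqNModC, qExpand_one_apply]
  have hQ : ∀ y : LaurentSeries A, redA A (qExpand A p y) = qExpand _ p (redA A y) :=
    fun y => coeffMap_qExpand _ _ _
  rw [hJ, hQ, hQ, sub_eq_zero] at h0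
  have hQy : qExpand (IsLocalRing.ResidueField A) p (redA A y₂) ≠ 0 := by
    intro h'
    apply hy
    apply qExpand_injective p
    rw [h', map_zero]
  have h1 : jqModC (IsLocalRing.ResidueField A) =
      qExpand (IsLocalRing.ResidueField A) p (redA A y₁ / redA A y₂) := by
    rw [map_div₀, eq_div_iff hQy, h0]
  have h2 := congrArg (fun x : LaurentSeries (IsLocalRing.ResidueField A) => x.coeff (-1)) h1
  simp only [coeff_jqModC_neg_one] at h2
  rw [qExpand_coeff_of_not_dvd] at h2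
  · exact one_ne_zero h2
  · intro hdvd
    have h3 : ((p : ℤ)) ∣ 1 := (dvd_neg).mp hdvd
    have h4 := Int.le_of_dvd one_pos h3
    omega

end Insep

section AtkinLehner

variable (N ℓ : ℕ) [NeZero N] [NeZero ℓ]

theorem arithmeticRingAut_jF (σ : Kb ≃ₐ[ℚ] Kb) (d : N.divisors) :
    arithmeticRingAut (modularFunctionFieldFull N) σ (Fermat.Agent.S24.jF N d) =
      Fermat.Agent.S24.jF N d :=
  Subtype.ext (coeffMap_coeffEmb σ _)

/-- The Atkin–Lehner automorphism of `F_{Nℓ}`, commuting with the Galois action. -/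
theorem exists_atkinLehner_galois (hℓ : ℓ.Prime) (hℓN : ¬ ℓ ∣ N) :
    ∃ w : ↥(modularFunctionFieldBar (N * ℓ)) ≃+* ↥(modularFunctionFieldBar (N * ℓ)),
      (∀ f, w (w f) = f) ∧
      (∀ a : Kb, w (algebraMap Kb ↥(modularFunctionFieldBar (N * ℓ)) a) =
        algebraMap Kb ↥(modularFunctionFieldBar (N * ℓ)) a) ∧
      (∀ c, w (heckeAlphaBar Kb N ℓ c) = heckeBetaBar Kb N ℓ c) ∧
      (∀ c, w (heckeBetaBar Kb N ℓ c) = heckeAlphaBar Kb N ℓ c) ∧
      (∀ (σ : Kb ≃ₐ[ℚ] Kb) g, w (arithmeticRingAut (modularFunctionFieldFull (N * ℓ)) σ g) =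
        arithmeticRingAut (modularFunctionFieldFull (N * ℓ)) σ (w g)) := by
  obtain ⟨w, hww, hK, hj, hα, hβ⟩ := Fermat.Agent.S29.H64.exists_atkinLehner_equiv N ℓ hℓ hℓN
  refine ⟨w, hww, hK, hα, hβ, ?_⟩
  intro σ g
  have key : (w : ↥(modularFunctionFieldBar (N * ℓ)) →+* ↥(modularFunctionFieldBar (N * ℓ))).comp
      ((arithmeticRingAut (modularFunctionFieldFull (N * ℓ)) σ :
        ↥(modularFunctionFieldBar (N * ℓ)) ≃+* ↥(modularFunctionFieldBar (N * ℓ))) :
        ↥(modularFunctionFieldBar (N * ℓ)) →+* ↥(modularFunctionFieldBar (N * ℓ))) =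
      ((arithmeticRingAut (modularFunctionFieldFull (N * ℓ)) σ :
        ↥(modularFunctionFieldBar (N * ℓ)) ≃+* ↥(modularFunctionFieldBar (N * ℓ))) :
        ↥(modularFunctionFieldBar (N * ℓ)) →+* ↥(modularFunctionFieldBar (N * ℓ))).comp
      (w : ↥(modularFunctionFieldBar (N * ℓ)) →+* ↥(modularFunctionFieldBar (N * ℓ))) := by
    apply Fermat.Agent.S29.H64.ringHom_ext_FF
    · intro a
      show w (arithmeticRingAut (modularFunctionFieldFull (N * ℓ)) σ (algebraMap _ _ a)) =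
        arithmeticRingAut (modularFunctionFieldFull (N * ℓ)) σ (w (algebraMap _ _ a))
      rw [hK]
      erw [arithmeticRingAut_algebraMap]
      exact hK _
    · intro d
      show w (arithmeticRingAut (modularFunctionFieldFull (N * ℓ)) σ
          (Fermat.Agent.S24.jF (N * ℓ) d)) =
        arithmeticRingAut (modularFunctionFieldFull (N * ℓ)) σ (w (Fermat.Agent.S24.jF (N * ℓ) d))
      rw [hj, arithmeticRingAut_jF, arithmeticRingAut_jF, hj]
  exact congrArg (fun φ : ↥(modularFunctionFieldBar (N * ℓ)) →+*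
    ↥(modularFunctionFieldBar (N * ℓ)) => φ g) key

end AtkinLehner

/-- **Package L1**: the two Gauss rings of `F_{Mq}` at `q`. -/
theorem twoGaussStatement : TwoGaussStatement := by
  intro M q _ hq hqM A hA
  have hqp : q.Prime := Fact.out
  haveI : NeZero q := ⟨hqp.ne_zero⟩
  obtain ⟨w, hww, hK, hα, hβ, hgal⟩ := exists_atkinLehner_galois M q hqp hqM
  refine ⟨gaussQ A hA (M * q), w, ?_⟩
  have hO : gaussQ A hA M = gaussO A M hA hqM := gaussQ_eq_gaussO A hA M hqM
  exact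
    { w_w := hww
      w_algebraMap := hK
      w_alpha := hα
      w_beta := hβ
      w_galois := hgal
      algebraMap_mem_iff := algebraMap_mem_gaussQ_iff A hA (M * q)
      scale := gaussQ_scale A hA (M * q)
      alpha_mem_iff := fun f => by rw [← hO]; exact alpha_mem_gaussQ_iff A hA M q f
      beta_mem_iff := fun f => by rw [← hO]; exact beta_mem_gaussQ_iff A hA M q f
      kronecker := fun s hs f hf => kronecker_gaussQ A hA M hs (hO ▸ hf)
      galois_mem := fun σ hσ g hg => galois_mem_gaussQ A hA (M * q) ⟨σ, hσ⟩ hg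
      inertia_sub_mem := fun σ hσ g hg => inertia_sub_mem_nonunits_gaussQ A hA (M * q) hσ hg
      j_sub_beta_not_mem := fun f hf =>
        j_sub_beta_not_mem_nonunits A hA M q hqp.two_le (hO ▸ hf) }

end Fermat.Agent.S34.H64
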