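/-
Program B' (S34), package L1 (helper64): corollaries of `TwoGauss` — the second Gauss ring
`O₂ = O₁.comap w`, the mirrored statements, the separating element, and the inputs of the
two-extension lemma (`TwoExtStatement`) for `y = β j`.
-/
import Mathlib
import Fermat.Agent.S34.H64.TwoGauss
import Fermat.Agent.S54.H94.Frobenius

set_option autoImplicit false
set_option linter.style.haveILetI false
set_option linter.unusedSectionVars false

noncomputable section

namespace Fermat.Agent.S34.H64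

open ModularCurve AlgebraicCurve Fermat.Agent.S18.H66 Fermat.Agent.S37.H65

section Comap

variable {F : Type*} [Field F]

/-- The image of a valuation subring under the inverse of an automorphism. -/
def secondGauss (O₁ : ValuationSubring F) (w : F ≃+* F) : ValuationSubring F :=
  O₁.comap (w : F →+* F)

theorem mem_secondGauss_iff (O₁ : ValuationSubring F) (w : F ≃+* F) (g : F) :
    g ∈ secondGauss O₁ w ↔ w g ∈ O₁ := Iff.rfl

theorem mem_nonunits_secondGauss_iff (O₁ : ValuationSubring F) (w : F ≃+* F) (g : F) :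
    g ∈ (secondGauss O₁ w).nonunits ↔ w g ∈ O₁.nonunits := by
  rw [ValuationSubring.mem_nonunits_iff_or, ValuationSubring.mem_nonunits_iff_or,
    mem_secondGauss_iff, map_inv₀, map_eq_zero_iff w w.injective]

end Comap

section Unit

variable {F F' : Type*} [Field F] [Field F']

/-- A ring homomorphism of fields along which two valuation subrings correspond also matches
their maximal ideals. -/
theorem mem_nonunits_iff_of_mem_iff (φ : F →+* F') (O : ValuationSubring F)
    (O' : ValuationSubring F') (h : ∀ f, φ f ∈ O' ↔ f ∈ O) (f : F) :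
    φ f ∈ O'.nonunits ↔ f ∈ O.nonunits := by
  rw [ValuationSubring.mem_nonunits_iff_or, ValuationSubring.mem_nonunits_iff_or, ← map_inv₀, h,
    map_eq_zero_iff φ φ.injective]

end Unit

section J

variable (A : ValuationSubring Kb) {ℓ : ℕ} [Fact ℓ.Prime] (hA : A.LiesOverPrime ℓ)
  (N : ℕ) [NeZero N]

/-- `j` lies in the `q`-expansion Gauss ring. -/
theorem jgen_mem_gaussQ : Fermat.Agent.S24.jgen N ∈ gaussQ A hA N :=
  (mem_gaussQ_iff A hA N _).mpr ⟨jqNModC A 1, 1, by rw [map_one]; exact one_ne_zero,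
    by rw [map_one, mul_one, coe_jgen A N]⟩

theorem arithmeticRingAut_jgen (σ : Kb ≃ₐ[ℚ] Kb) :
    arithmeticRingAut (modularFunctionFieldFull N) σ (Fermat.Agent.S24.jgen N) =
      Fermat.Agent.S24.jgen N :=
  arithmeticRingAut_jF N σ _

end J

namespace TwoGauss

variable {M q : ℕ} [NeZero M] [Fact q.Prime] {hqM : ¬ q ∣ M} {A : ValuationSubring Kb}
  {hA : A.LiesOverPrime q} {O₁ : ValuationSubring ↥(modularFunctionFieldBar (M * q))}
  {w : ↥(modularFunctionFieldBar (M * q)) ≃+* ↥(modularFunctionFieldBar (M * q))}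
  (h : TwoGauss M q hqM A hA O₁ w)

include h

/-! ### Maximal ideals and restrictions -/

theorem alpha_mem_nonunits_iff (f : ↥(modularFunctionFieldBar M)) :
    heckeAlphaBar Kb M q f ∈ O₁.nonunits ↔ f ∈ (gaussO A M hA hqM).nonunits := by
  rw [ValuationSubring.mem_nonunits_iff_or, ValuationSubring.mem_nonunits_iff_or, ← map_inv₀,
    h.alpha_mem_iff, map_eq_zero]

theorem beta_mem_nonunits_iff (f : ↥(modularFunctionFieldBar M)) :
    heckeBetaBar Kb M q f ∈ O₁.nonunits ↔ f ∈ (gaussO A M hA hqM).nonunits := by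
  rw [ValuationSubring.mem_nonunits_iff_or, ValuationSubring.mem_nonunits_iff_or, ← map_inv₀,
    h.beta_mem_iff, map_eq_zero]

theorem alpha_mem_iff₂ (f : ↥(modularFunctionFieldBar M)) :
    heckeAlphaBar Kb M q f ∈ secondGauss O₁ w ↔ f ∈ gaussO A M hA hqM := by
  rw [mem_secondGauss_iff, h.w_alpha]
  exact h.beta_mem_iff f

theorem beta_mem_iff₂ (f : ↥(modularFunctionFieldBar M)) :
    heckeBetaBar Kb M q f ∈ secondGauss O₁ w ↔ f ∈ gaussO A M hA hqM := by
  rw [mem_secondGauss_iff, h.w_beta]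
  exact h.alpha_mem_iff f

theorem alpha_mem_nonunits_iff₂ (f : ↥(modularFunctionFieldBar M)) :
    heckeAlphaBar Kb M q f ∈ (secondGauss O₁ w).nonunits ↔ f ∈ (gaussO A M hA hqM).nonunits := by
  rw [ValuationSubring.mem_nonunits_iff_or, ValuationSubring.mem_nonunits_iff_or, ← map_inv₀,
    h.alpha_mem_iff₂, map_eq_zero]

theorem beta_mem_nonunits_iff₂ (f : ↥(modularFunctionFieldBar M)) :
    heckeBetaBar Kb M q f ∈ (secondGauss O₁ w).nonunits ↔ f ∈ (gaussO A M hA hqM).nonunits := by
  rw [ValuationSubring.mem_nonunits_iff_or, ValuationSubring.mem_nonunits_iff_or, ← map_inv₀,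
    h.beta_mem_iff₂, map_eq_zero]

/-! ### The mirrored statements at `O₂` -/

theorem algebraMap_mem_iff₂ (a : Kb) :
    algebraMap Kb ↥(modularFunctionFieldBar (M * q)) a ∈ secondGauss O₁ w ↔ a ∈ A := by
  rw [mem_secondGauss_iff, h.w_algebraMap]
  exact h.algebraMap_mem_iff a

theorem scale₂ (g : ↥(modularFunctionFieldBar (M * q))) (hg : g ≠ 0) :
    ∃ c : Kb, c ≠ 0 ∧
      algebraMap Kb ↥(modularFunctionFieldBar (M * q)) c * g ∈ secondGauss O₁ w ∧
      (algebraMap Kb ↥(modularFunctionFieldBar (M * q)) c * g)⁻¹ ∈ secondGauss O₁ w := by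
  obtain ⟨c, hc, h1, h2⟩ := h.scale (w g) ((map_ne_zero_iff w w.injective).mpr hg)
  refine ⟨c, hc, ?_, ?_⟩
  · rw [mem_secondGauss_iff, map_mul, h.w_algebraMap]
    exact h1
  · rw [mem_secondGauss_iff, map_inv₀, map_mul, h.w_algebraMap]
    exact h2

/-- Kronecker at the second Gauss ring: `α f ≡ β(s⁻¹ f)^q` modulo `m_{O₂}`. -/
theorem kronecker₂ (s : Kb ≃ₐ[ℚ] Kb) (hs : A.IsFrobeniusAt s q)
    (f : ↥(modularFunctionFieldBar M)) (hf : f ∈ gaussO A M hA hqM) :
    heckeAlphaBar Kb M q f -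
        heckeBetaBar Kb M q (arithmeticRingAut (modularFunctionFieldFull M) s⁻¹ f) ^ q ∈
      (secondGauss O₁ w).nonunits := by
  rw [mem_nonunits_secondGauss_iff, map_sub, map_pow, h.w_alpha, h.w_beta]
  exact h.kronecker s hs f hf

theorem galois_mem₂ (σ : Kb ≃ₐ[ℚ] Kb) (hσ : σ ∈ A.decompositionSubgroup ℚ)
    (g : ↥(modularFunctionFieldBar (M * q))) (hg : g ∈ secondGauss O₁ w) :
    arithmeticRingAut (modularFunctionFieldFull (M * q)) σ g ∈ secondGauss O₁ w := by
  rw [mem_secondGauss_iff, h.w_galois]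
  exact h.galois_mem σ hσ _ hg

/-- Inertia acts trivially on the residue field of the second Gauss ring. -/
theorem inertia_sub_mem₂ (σ : Kb ≃ₐ[ℚ] Kb) (hσ : σ ∈ A.inertiaSubgroupIn ℚ)
    (g : ↥(modularFunctionFieldBar (M * q))) (hg : g ∈ secondGauss O₁ w) :
    arithmeticRingAut (modularFunctionFieldFull (M * q)) σ g - g ∈
      (secondGauss O₁ w).nonunits := by
  rw [mem_nonunits_secondGauss_iff, map_sub, h.w_galois]
  exact h.inertia_sub_mem σ hσ _ hg

/-- `β j` is not congruent to an element of `α(O_M)` modulo `m_{O₂}`. -/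
theorem betaj_sub_alpha_not_mem₂ (f : ↥(modularFunctionFieldBar M))
    (hf : f ∈ gaussO A M hA hqM) :
    heckeBetaBar Kb M q (Fermat.Agent.S24.jgen M) - heckeAlphaBar Kb M q f ∉
      (secondGauss O₁ w).nonunits := by
  rw [mem_nonunits_secondGauss_iff, map_sub, h.w_alpha, h.w_beta]
  exact h.j_sub_beta_not_mem f hf

/-! ### `j`, the separating element, and the inputs of the two-extension lemma -/

theorem jgen_mem : Fermat.Agent.S24.jgen M ∈ gaussO A M hA hqM := by
  rw [← gaussQ_eq_gaussO A hA M hqM]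
  exact jgen_mem_gaussQ A hA M

/-- `u = β j - (α j)^q` lies in the maximal ideal of `O₁`. -/
theorem sep_mem_nonunits :
    heckeBetaBar Kb M q (Fermat.Agent.S24.jgen M) -
      heckeAlphaBar Kb M q (Fermat.Agent.S24.jgen M) ^ q ∈ O₁.nonunits := by
  obtain ⟨s, hs⟩ := Fermat.Agent.S54.H94.exists_isFrobeniusAt_of_liesOverPrime A
    (Fact.out : q.Prime) hA
  have h1 := h.kronecker s hs _ h.jgen_mem
  rwa [arithmeticRingAut_jgen] at h1

/-- `u = β j - (α j)^q` lies in `O₂`. -/
theorem sep_mem₂ :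
    heckeBetaBar Kb M q (Fermat.Agent.S24.jgen M) -
      heckeAlphaBar Kb M q (Fermat.Agent.S24.jgen M) ^ q ∈ secondGauss O₁ w := by
  rw [mem_secondGauss_iff, map_sub, map_pow, h.w_alpha, h.w_beta]
  exact sub_mem ((h.alpha_mem_iff _).mpr h.jgen_mem)
    (pow_mem ((h.beta_mem_iff _).mpr h.jgen_mem) q)

/-- `u = β j - (α j)^q` is not in the maximal ideal of `O₂`: it is a unit of `O₂`. -/
theorem sep_not_mem_nonunits₂ :
    heckeBetaBar Kb M q (Fermat.Agent.S24.jgen M) -
      heckeAlphaBar Kb M q (Fermat.Agent.S24.jgen M) ^ q ∉ (secondGauss O₁ w).nonunits := by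
  rw [mem_nonunits_secondGauss_iff, map_sub, map_pow, h.w_alpha, h.w_beta, ← map_pow]
  exact h.j_sub_beta_not_mem _ (pow_mem h.jgen_mem q)

/-- **The two Gauss rings are different.** -/
theorem ne_secondGauss : O₁ ≠ secondGauss O₁ w := by
  intro heq
  apply h.sep_not_mem_nonunits₂
  rw [← heq]
  exact h.sep_mem_nonunits

/-- `β j ∈ O₂`. -/
theorem betaj_mem₂ : heckeBetaBar Kb M q (Fermat.Agent.S24.jgen M) ∈ secondGauss O₁ w :=
  (h.beta_mem_iff₂ _).mpr h.jgen_mem

/-- `(β j)^q ≡ α j` modulo `m_{O₂}`. -/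
theorem betaj_pow_sub_mem_nonunits₂ :
    heckeBetaBar Kb M q (Fermat.Agent.S24.jgen M) ^ q -
      heckeAlphaBar Kb M q (Fermat.Agent.S24.jgen M) ∈ (secondGauss O₁ w).nonunits := by
  rw [mem_nonunits_secondGauss_iff, map_sub, map_pow, h.w_alpha, h.w_beta]
  have h1 := h.sep_mem_nonunits
  rw [ValuationSubring.mem_nonunits_iff] at h1 ⊢
  rwa [← neg_sub, Valuation.map_neg]

end TwoGauss

end Fermat.Agent.S34.H64
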