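/-
Program B' (S34), M6b supply (helper64): the finite chart does not depend on the `j`-function.

For `d, e ∣ N'` the functions `j(q^d)`, `j(q^e)` of the `K₀`-form of `F_{N'}` are integral over
each other's polynomial ring (chain of modular equations), so the charts
`chart A₀ j(q^d)` (integral closure of `A₀[j(q^d)]`) all coincide.

* `chart_le_chart`           : `z ∈ chart A₀ x → chart A₀ z ≤ chart A₀ x`;
* `jFN_mem_chart_jFN`        : `j(q^d) ∈ chart A₀ j(q^e)` inside `ratForm N' K₀`;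
* `jgen_mem_chart_alpha_jtop`: `j` lies in the chart of `α(j(q^M))` at level `M q`
  (hypothesis `hj` of the unramifiedness supply);
* `betaForm_jtop_mem_chart`, `alphaForm_jtop_mem_chart_beta` : `β(j(q^M))` and `α(j(q^M))` are
  integral over each other's polynomial ring (hypothesis `hβx` of `H68.beta_mem_chart`).
-/
import Mathlib
import Fermat.Agent.S34.H42.CuspIntegral
import Fermat.Agent.S34.H42.CuspLoc
import Fermat.Agent.S34.H61.FormMaps

set_option autoImplicit false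
set_option linter.style.haveILetI false
set_option linter.unusedSectionVars false

noncomputable section

namespace Fermat.Agent.S34.H64

open ModularCurve AlgebraicCurve

/-! ### Transitivity of charts -/

section Abstract

variable {A₀ F₀ : Type*} [CommRing A₀] [Field F₀] [Algebra A₀ F₀]

/-- If `z` is integral over `A₀[x]`, the chart of `z` is contained in the chart of `x`. -/
theorem chart_le_chart {x z : F₀} (hz : z ∈ Fermat.Agent.S18.H19.chart A₀ x) :
    Fermat.Agent.S18.H19.chart A₀ z ≤ Fermat.Agent.S18.H19.chart A₀ x := by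
  intro y hy
  rw [Fermat.Agent.S18.H19.mem_chart_iff] at hy hz ⊢
  -- `A₀[z]` lies in the integral closure of `A₀[x]`
  have hadj : ∀ b ∈ Algebra.adjoin A₀ ({z} : Set F₀),
      b ∈ integralClosure ↥(Algebra.adjoin A₀ ({x} : Set F₀)) F₀ := by
    intro b hb
    induction hb using Algebra.adjoin_induction with
    | mem w hw =>
      rw [Set.mem_singleton_iff] at hw
      rw [hw]
      exact hz
    | algebraMap r =>
      have h : algebraMap A₀ F₀ r = algebraMap ↥(Algebra.adjoin A₀ ({x} : Set F₀)) F₀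
          (algebraMap A₀ ↥(Algebra.adjoin A₀ ({x} : Set F₀)) r) := rfl
      rw [h]
      exact Subalgebra.algebraMap_mem _ _
    | add w v _ _ hw hv => exact add_mem hw hv
    | mul w v _ _ hw hv => exact mul_mem hw hv
  obtain ⟨p, hp, hpy⟩ := hy
  let φ : ↥(Algebra.adjoin A₀ ({z} : Set F₀)) →+*
      ↥(integralClosure ↥(Algebra.adjoin A₀ ({x} : Set F₀)) F₀) :=
    ((Algebra.adjoin A₀ ({z} : Set F₀)).val :
        ↥(Algebra.adjoin A₀ ({z} : Set F₀)) →+* F₀).codRestrict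
      (integralClosure ↥(Algebra.adjoin A₀ ({x} : Set F₀)) F₀) (fun b => hadj b b.2)
  have hy' : IsIntegral ↥(integralClosure ↥(Algebra.adjoin A₀ ({x} : Set F₀)) F₀) y := by
    refine ⟨p.map φ, hp.map φ, ?_⟩
    rw [Polynomial.eval₂_map]
    exact hpy
  exact isIntegral_trans y hy'

end Abstract

/-! ### The `j`-functions of the `K₀`-form -/

open Fermat.Agent.S18 Fermat.Agent.S18.H74 Fermat.Agent.S34.H19 Fermat.Agent.S34.H61
  Fermat.Agent.S28

section JChain

variable (N' : ℕ) [NeZero N'] (K₀ : IntermediateField ℚ Kb) (A : ValuationSubring Kb)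

theorem jFN_mem_ratForm (d : ℕ) [NeZero d] (hd : d ∣ N') :
    Fermat.Agent.S18.H28.jFN N' d hd ∈ ratForm N' K₀ := by
  have h : Fermat.Agent.S18.H28.jFN N' d hd
      = ratEmb N' ⟨qExpand ℚ d jq, jqd_mem_full N' hd⟩ := rfl
  rw [h]
  exact ratEmb_mem_ratForm N' K₀ _

/-- `j(q^d)` as an element of the `K₀`-form (`0` if `d` is not a divisor of `N'`). -/
def jdForm (d : ℕ) : ↥(ratForm N' K₀) :=
  if h : d ≠ 0 ∧ d ∣ N' then
    ⟨@Fermat.Agent.S18.H28.jFN N' d ⟨h.1⟩ h.2, @jFN_mem_ratForm N' _ K₀ d ⟨h.1⟩ h.2⟩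
  else 0

theorem coe_jdForm (d : ℕ) [NeZero d] (hd : d ∣ N') :
    ((jdForm N' K₀ d : ↥(ratForm N' K₀)) : FN N') = Fermat.Agent.S18.H28.jFN N' d hd := by
  unfold jdForm
  rw [dif_pos ⟨NeZero.ne d, hd⟩]

/-- One prime step of the chain. -/
theorem jdForm_mem_chart_step (d p : ℕ) (hp : p.Prime) (hd0 : d ≠ 0) (hdp : d * p ∣ N') :
    letI := Fermat.Agent.S18.H19.algComap (A.comap (algebraMap K₀ Kb)) (ratForm N' K₀)
    jdForm N' K₀ d ∈ Fermat.Agent.S18.H19.chart ↥(A.comap (algebraMap K₀ Kb))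
        (jdForm N' K₀ (d * p)) ∧
      jdForm N' K₀ (d * p) ∈ Fermat.Agent.S18.H19.chart ↥(A.comap (algebraMap K₀ Kb))
        (jdForm N' K₀ d) := by
  letI := Fermat.Agent.S18.H19.algComap (A.comap (algebraMap K₀ Kb)) (ratForm N' K₀)
  haveI : NeZero d := ⟨hd0⟩
  haveI : NeZero (d * p) := ⟨mul_ne_zero hd0 hp.ne_zero⟩
  have hd : d ∣ N' := (dvd_mul_right d p).trans hdp
  obtain ⟨Φ, hΦ⟩ := Fermat.Agent.S28.hasModPolys p hp
  obtain ⟨h1, h2⟩ := Fermat.Agent.S34.H42.evalY_jFN N' hp d hd hdp hΦ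
  have inj := (algebraMap ↥(ratForm N' K₀) (FN N')).injective
  have e1 : algebraMap ↥(ratForm N' K₀) (FN N') (jdForm N' K₀ d)
      = Fermat.Agent.S18.H28.jFN N' d hd := coe_jdForm N' K₀ d hd
  have e2 : algebraMap ↥(ratForm N' K₀) (FN N') (jdForm N' K₀ (d * p))
      = Fermat.Agent.S18.H28.jFN N' (d * p) hdp := coe_jdForm N' K₀ (d * p) hdp
  refine ⟨Fermat.Agent.S34.H42.mem_chart_of_evalY hΦ _ _ (inj ?_),
    Fermat.Agent.S34.H42.mem_chart_of_evalY hΦ _ _ (inj ?_)⟩
  · rw [map_evalY_eval, map_zero, e1, e2]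
    exact h2
  · rw [map_evalY_eval, map_zero, e1, e2]
    exact h1

/-- The chain: `j(q^d)` and `j(q^(d k))` are integral over each other's polynomial ring. -/
theorem jdForm_mem_chart_mul (k : ℕ) :
    letI := Fermat.Agent.S18.H19.algComap (A.comap (algebraMap K₀ Kb)) (ratForm N' K₀)
    ∀ d e : ℕ, d ≠ 0 → e = d * k → e ∣ N' →
      jdForm N' K₀ d ∈ Fermat.Agent.S18.H19.chart ↥(A.comap (algebraMap K₀ Kb))
          (jdForm N' K₀ e) ∧
        jdForm N' K₀ e ∈ Fermat.Agent.S18.H19.chart ↥(A.comap (algebraMap K₀ Kb))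
          (jdForm N' K₀ d) := by
  letI := Fermat.Agent.S18.H19.algComap (A.comap (algebraMap K₀ Kb)) (ratForm N' K₀)
  induction k using induction_on_primes with
  | zero =>
    intro d e _ he hdvd
    rw [he, mul_zero] at hdvd
    exact absurd (Nat.eq_zero_of_zero_dvd hdvd) (NeZero.ne N')
  | one =>
    intro d e _ he _
    rw [mul_one] at he
    subst he
    exact ⟨Fermat.Agent.S18.H19.self_mem_chart _ _, Fermat.Agent.S18.H19.self_mem_chart _ _⟩
  | prime_mul p a hp ih =>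
    intro d e hd0 he hdvd
    have he' : e = d * p * a := by rw [he, mul_assoc]
    have hdp : d * p ∣ N' := (Dvd.intro a he'.symm).trans hdvd
    obtain ⟨s1, s2⟩ := jdForm_mem_chart_step N' K₀ A d p hp hd0 hdp
    obtain ⟨t1, t2⟩ := ih (d * p) e (mul_ne_zero hd0 hp.ne_zero) he' hdvd
    exact ⟨chart_le_chart t1 s1, chart_le_chart s2 t2⟩

/-- **The finite chart does not depend on the `j`-function**: for `d, e ∣ N'`, `j(q^d)` is
integral over `A₀[j(q^e)]`. -/
theorem jdForm_mem_chart (d e : ℕ) (hd : d ∣ N') (he : e ∣ N') :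
    letI := Fermat.Agent.S18.H19.algComap (A.comap (algebraMap K₀ Kb)) (ratForm N' K₀)
    jdForm N' K₀ d ∈ Fermat.Agent.S18.H19.chart ↥(A.comap (algebraMap K₀ Kb))
      (jdForm N' K₀ e) := by
  letI := Fermat.Agent.S18.H19.algComap (A.comap (algebraMap K₀ Kb)) (ratForm N' K₀)
  obtain ⟨-, a2⟩ := jdForm_mem_chart_mul N' K₀ A d 1 d one_ne_zero (one_mul d).symm hd
  obtain ⟨b1, -⟩ := jdForm_mem_chart_mul N' K₀ A e 1 e one_ne_zero (one_mul e).symm he
  exact chart_le_chart b1 a2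

/-- `j(q^d) ∈ chart A₀ j(q^e)` for the elements `⟨jFN N' d hd, _⟩` of the `K₀`-form. -/
theorem jFN_mem_chart_jFN (d e : ℕ) [NeZero d] [NeZero e] (hd : d ∣ N') (he : e ∣ N') :
    letI := Fermat.Agent.S18.H19.algComap (A.comap (algebraMap K₀ Kb)) (ratForm N' K₀)
    (⟨Fermat.Agent.S18.H28.jFN N' d hd, jFN_mem_ratForm N' K₀ d hd⟩ : ↥(ratForm N' K₀)) ∈
      Fermat.Agent.S18.H19.chart ↥(A.comap (algebraMap K₀ Kb))
        (⟨Fermat.Agent.S18.H28.jFN N' e he, jFN_mem_ratForm N' K₀ e he⟩ : ↥(ratForm N' K₀)) := by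
  letI := Fermat.Agent.S18.H19.algComap (A.comap (algebraMap K₀ Kb)) (ratForm N' K₀)
  have h := jdForm_mem_chart N' K₀ A d e hd he
  have e1 : jdForm N' K₀ d
      = (⟨Fermat.Agent.S18.H28.jFN N' d hd, jFN_mem_ratForm N' K₀ d hd⟩ : ↥(ratForm N' K₀)) :=
    Subtype.ext (coe_jdForm N' K₀ d hd)
  have e2 : jdForm N' K₀ e
      = (⟨Fermat.Agent.S18.H28.jFN N' e he, jFN_mem_ratForm N' K₀ e he⟩ : ↥(ratForm N' K₀)) :=
    Subtype.ext (coe_jdForm N' K₀ e he)
  rw [e1, e2] at h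
  exact h

end JChain

/-! ### The base function `j(q^M)` at the node level -/

section Top

variable (M q : ℕ) [NeZero M] [NeZero q] (K₀ : IntermediateField ℚ Kb) (A : ValuationSubring Kb)

theorem heckeAlphaBar_jtop :
    heckeAlphaBar Kb M q (Fermat.Agent.S18.H28.jtop M)
      = Fermat.Agent.S18.H28.jFN (M * q) M (dvd_mul_right M q) :=
  Subtype.ext rfl

theorem heckeBetaBar_jtop :
    heckeBetaBar Kb M q (Fermat.Agent.S18.H28.jtop M)
      = Fermat.Agent.S18.H28.jFN (M * q) (M * q) dvd_rfl := by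
  have h1 : Fermat.Agent.S18.H28.jtop M
      = Fermat.Agent.S24.jF M (Fermat.Agent.S24.topDiv M) := Subtype.ext rfl
  rw [h1, Fermat.Agent.S29.H64.heckeBetaBar_jF]
  exact Subtype.ext rfl

theorem jgen_eq_jFN (N : ℕ) [NeZero N] :
    Fermat.Agent.S24.jgen N = Fermat.Agent.S18.H28.jFN N 1 (one_dvd N) :=
  Subtype.ext rfl

/-- **(J1)** `j` lies in the chart of `α(j(q^M))` at level `M q`. -/
theorem jgen_mem_chart_alpha_jtop (x : ↥(ratForm M K₀))
    (hx : (x : FN M) = Fermat.Agent.S18.H28.jtop M) :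
    letI := Fermat.Agent.S18.H19.algComap (A.comap (algebraMap K₀ Kb)) (ratForm (M * q) K₀)
    ∃ c ∈ Fermat.Agent.S18.H19.chart ↥(A.comap (algebraMap K₀ Kb))
        (Fermat.Agent.S34.H61.alphaForm M q K₀ x),
      ((c : ↥(ratForm (M * q) K₀)) : FN (M * q)) = Fermat.Agent.S24.jgen (M * q) := by
  letI := Fermat.Agent.S18.H19.algComap (A.comap (algebraMap K₀ Kb)) (ratForm (M * q) K₀)
  have h := jFN_mem_chart_jFN (M * q) K₀ A 1 M (one_dvd _) (dvd_mul_right M q)
  have e : Fermat.Agent.S34.H61.alphaForm M q K₀ x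
      = (⟨Fermat.Agent.S18.H28.jFN (M * q) M (dvd_mul_right M q),
          jFN_mem_ratForm (M * q) K₀ M (dvd_mul_right M q)⟩ : ↥(ratForm (M * q) K₀)) := by
    apply Subtype.ext
    rw [Fermat.Agent.S34.H61.coe_alphaForm, hx]
    exact heckeAlphaBar_jtop M q
  rw [e]
  exact ⟨_, h, (jgen_eq_jFN (M * q)).symm⟩

/-- **(J2)** `β(j(q^M))` is integral over `A₀[α(j(q^M))]`. -/
theorem betaForm_jtop_mem_chart (x : ↥(ratForm M K₀))
    (hx : (x : FN M) = Fermat.Agent.S18.H28.jtop M) :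
    letI := Fermat.Agent.S18.H19.algComap (A.comap (algebraMap K₀ Kb)) (ratForm (M * q) K₀)
    Fermat.Agent.S34.H61.betaForm M q K₀ x ∈
      Fermat.Agent.S18.H19.chart ↥(A.comap (algebraMap K₀ Kb))
        (Fermat.Agent.S34.H61.alphaForm M q K₀ x) := by
  letI := Fermat.Agent.S18.H19.algComap (A.comap (algebraMap K₀ Kb)) (ratForm (M * q) K₀)
  have h := jFN_mem_chart_jFN (M * q) K₀ A (M * q) M dvd_rfl (dvd_mul_right M q)
  have e : Fermat.Agent.S34.H61.alphaForm M q K₀ x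
      = (⟨Fermat.Agent.S18.H28.jFN (M * q) M (dvd_mul_right M q),
          jFN_mem_ratForm (M * q) K₀ M (dvd_mul_right M q)⟩ : ↥(ratForm (M * q) K₀)) := by
    apply Subtype.ext
    rw [Fermat.Agent.S34.H61.coe_alphaForm, hx]
    exact heckeAlphaBar_jtop M q
  have e' : Fermat.Agent.S34.H61.betaForm M q K₀ x
      = (⟨Fermat.Agent.S18.H28.jFN (M * q) (M * q) dvd_rfl,
          jFN_mem_ratForm (M * q) K₀ (M * q) dvd_rfl⟩ : ↥(ratForm (M * q) K₀)) := by
    apply Subtype.ext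
    rw [Fermat.Agent.S34.H61.coe_betaForm, hx]
    exact heckeBetaBar_jtop M q
  rw [e, e']
  exact h

/-- `α(j(q^M))` is integral over `A₀[β(j(q^M))]`. -/
theorem alphaForm_jtop_mem_chart_beta (x : ↥(ratForm M K₀))
    (hx : (x : FN M) = Fermat.Agent.S18.H28.jtop M) :
    letI := Fermat.Agent.S18.H19.algComap (A.comap (algebraMap K₀ Kb)) (ratForm (M * q) K₀)
    Fermat.Agent.S34.H61.alphaForm M q K₀ x ∈
      Fermat.Agent.S18.H19.chart ↥(A.comap (algebraMap K₀ Kb))
        (Fermat.Agent.S34.H61.betaForm M q K₀ x) := by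
  letI := Fermat.Agent.S18.H19.algComap (A.comap (algebraMap K₀ Kb)) (ratForm (M * q) K₀)
  have h := jFN_mem_chart_jFN (M * q) K₀ A M (M * q) (dvd_mul_right M q) dvd_rfl
  have e : Fermat.Agent.S34.H61.alphaForm M q K₀ x
      = (⟨Fermat.Agent.S18.H28.jFN (M * q) M (dvd_mul_right M q),
          jFN_mem_ratForm (M * q) K₀ M (dvd_mul_right M q)⟩ : ↥(ratForm (M * q) K₀)) := by
    apply Subtype.ext
    rw [Fermat.Agent.S34.H61.coe_alphaForm, hx]
    exact heckeAlphaBar_jtop M q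
  have e' : Fermat.Agent.S34.H61.betaForm M q K₀ x
      = (⟨Fermat.Agent.S18.H28.jFN (M * q) (M * q) dvd_rfl,
          jFN_mem_ratForm (M * q) K₀ (M * q) dvd_rfl⟩ : ↥(ratForm (M * q) K₀)) := by
    apply Subtype.ext
    rw [Fermat.Agent.S34.H61.coe_betaForm, hx]
    exact heckeBetaBar_jtop M q
  rw [e, e']
  exact h

end Top

end Fermat.Agent.S34.H64
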