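/-
Program B' (S34), package L1-DESC / F-DEG (helper64): the two-Gauss package at the DISCRETE level,
for the `K₀`-forms `H61.ratForm N K₀ = K₀ · F_{N,ℚ}` of the modular function fields.

* `coeffLam` : coefficientwise application of a `k`-linear functional to a Laurent series;
  it is linear over the series with coefficients in `k` (`coeffLam_mul`) and the functionals
  separate points (`eq_zero_of_coeffLam`).
* `coe_mem_ratSeries` : the `q`-expansion of an element of `ratForm N K₀` has coefficients in `K₀`.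
* `alphaForm`, `betaForm` : the degeneracy maps on the `K₀`-forms; `wForm` : the Atkin–Lehner
  involution on the `K₀`-form of level `M q`.
* `linearIndependent_ratForm` : linear disjointness — a family of `ratForm (M q) K₀` which is
  linearly independent over `ratForm M K₀` (along `α`) stays linearly independent over `F_M`.
* `finrank_ratForm` : **(F-DEG)** `[ratForm (M q) K₀ : α (ratForm M K₀)] = q + 1`, `q ∤ M` prime.
* `twoExt_ratForm` : **(PACK)** the conclusions `TwoExt` of the two-extension lemma for the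
  restrictions to the `K₀`-forms of the Gauss ring of level `M` and of the two Gauss rings of
  level `M q`.
-/
import Mathlib
import Fermat.Agent.S34.H64.TwoGaussCor
import Fermat.Agent.S34.H6.TwoExt
import Fermat.Agent.S34.H61.TauDescent
import Fermat.Agent.S37.H87.HeckeDegree

set_option autoImplicit false
set_option linter.style.haveILetI false
set_option linter.unusedSectionVars false

noncomputable section

namespace Fermat.Agent.S34.H64

open ModularCurve AlgebraicCurve

/-! ### Coefficientwise functionals on Laurent series -/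

section Series

variable (k K : Type*) [Field k] [Field K] [Algebra k K]

/-- Laurent series with coefficients in `k`. -/
def ratSeries : Subfield (LaurentSeries K) :=
  (coeffMap (algebraMap k K)).fieldRange

variable {k K}

theorem coeff_mem_of_mem_ratSeries {y : LaurentSeries K} (hy : y ∈ ratSeries k K) (n : ℤ) :
    ∃ c : k, y.coeff n = algebraMap k K c := by
  obtain ⟨z, rfl⟩ := hy
  exact ⟨z.coeff n, coeffMap_coeff _ _ _⟩

/-- Coefficientwise application of a `k`-linear functional. -/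
def coeffLam (lam : K →ₗ[k] k) (x : LaurentSeries K) : LaurentSeries K :=
  x.map ((algebraMap k K : k →+ K).comp lam.toAddMonoidHom)

theorem coeffLam_coeff (lam : K →ₗ[k] k) (x : LaurentSeries K) (n : ℤ) :
    (coeffLam lam x).coeff n = algebraMap k K (lam (x.coeff n)) := rfl

theorem coeffLam_zero (lam : K →ₗ[k] k) : coeffLam lam 0 = 0 := by
  ext n
  rw [coeffLam_coeff, HahnSeries.coeff_zero, map_zero, map_zero]

theorem coeffLam_add (lam : K →ₗ[k] k) (x y : LaurentSeries K) :
    coeffLam lam (x + y) = coeffLam lam x + coeffLam lam y := by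
  ext n
  rw [coeffLam_coeff, HahnSeries.coeff_add, HahnSeries.coeff_add, map_add, map_add,
    coeffLam_coeff, coeffLam_coeff]

theorem coeffLam_sum (lam : K →ₗ[k] k) {ι : Type*} (s : Finset ι) (x : ι → LaurentSeries K) :
    coeffLam lam (∑ i ∈ s, x i) = ∑ i ∈ s, coeffLam lam (x i) := by
  classical
  induction s using Finset.induction_on with
  | empty => rw [Finset.sum_empty, Finset.sum_empty, coeffLam_zero]
  | insert a s ha ih => rw [Finset.sum_insert ha, Finset.sum_insert ha, coeffLam_add, ih]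

/-- `coeffLam` is linear over the series with coefficients in `k`. -/
theorem coeffLam_mul (lam : K →ₗ[k] k) (x : LaurentSeries K) {y : LaurentSeries K}
    (hy : y ∈ ratSeries k K) : coeffLam lam (x * y) = coeffLam lam x * y := by
  ext n
  have hsupp : (coeffLam lam x).support ⊆ x.support := by
    intro m hm
    rw [HahnSeries.mem_support] at hm ⊢
    intro h0
    apply hm
    rw [coeffLam_coeff, h0, map_zero, map_zero]
  rw [coeffLam_coeff, HahnSeries.coeff_mul, HahnSeries.coeff_mul_left' x.isPWO_support hsupp,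
    map_sum, map_sum]
  refine Finset.sum_congr rfl fun ij _ => ?_
  obtain ⟨c, hc⟩ := coeff_mem_of_mem_ratSeries hy ij.2
  rw [coeffLam_coeff, hc, mul_comm, ← Algebra.smul_def, map_smul, smul_eq_mul, map_mul, mul_comm]

/-- `coeffLam` of a constant multiple of a series with coefficients in `k`. -/
theorem coeffLam_single_mul (lam : K →ₗ[k] k) (a : K) {y : LaurentSeries K}
    (hy : y ∈ ratSeries k K) :
    coeffLam lam (HahnSeries.single 0 a * y) = HahnSeries.single 0 (algebraMap k K (lam a)) * y := by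
  ext n
  obtain ⟨c, hc⟩ := coeff_mem_of_mem_ratSeries hy n
  rw [coeffLam_coeff, HahnSeries.single_zero_mul_eq_smul, HahnSeries.single_zero_mul_eq_smul,
    HahnSeries.coeff_smul, HahnSeries.coeff_smul, hc, smul_eq_mul, smul_eq_mul, mul_comm,
    ← Algebra.smul_def, map_smul, smul_eq_mul, map_mul, mul_comm]

theorem coeffLam_single_mul' (lam : K →ₗ[k] k) (a : K) (x : LaurentSeries K) :
    coeffLam lam (HahnSeries.single 0 a * x) = coeffLam (lam.comp (LinearMap.mulLeft k a)) x := by
  ext n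
  rw [coeffLam_coeff, coeffLam_coeff, HahnSeries.single_zero_mul_eq_smul, HahnSeries.coeff_smul]
  rfl

/-- The coefficientwise functionals separate points. -/
theorem eq_zero_of_coeffLam (x : LaurentSeries K) (h : ∀ lam : K →ₗ[k] k, coeffLam lam x = 0) :
    x = 0 := by
  ext n
  rw [HahnSeries.coeff_zero]
  refine (Module.forall_dual_apply_eq_zero_iff k (x.coeff n)).mp fun lam => ?_
  have h1 := congrArg (fun z : LaurentSeries K => z.coeff n) (h lam)
  simp only [coeffLam_coeff, HahnSeries.coeff_zero] at h1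
  exact (map_eq_zero_iff _ (algebraMap k K).injective).mp h1

end Series

/-! ### An abstract degree comparison -/

section Abstract

variable {FM FN : Type*} [Field FM] [Field FN] [Algebra FM FN] [FiniteDimensional FM FN]
  {E F : Type*} [Field E] [Field F] [Algebra E F]

/-- If `E ⊆ FM`, `F ⊆ FN` are compatible subfields such that `F` is linearly disjoint from `FM`
over `E` and `FN = FM · F`, then `[F : E] = [FN : FM]`. -/
theorem finrank_eq_of_linearDisjoint (iE : E →+* FM) (iF : F →+* FN)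
    (hcomm : ∀ e : E, iF (algebraMap E F e) = algebraMap FM FN (iE e))
    (hLD : ∀ s : Finset F, LinearIndependent E (fun i : s => (i : F)) →
      LinearIndependent FM (fun i : s => iF (i : F)))
    (hgen : Subfield.closure (Set.range (algebraMap FM FN) ∪ Set.range iF) = ⊤) :
    Module.Finite E F ∧ Module.finrank E F = Module.finrank FM FN := by
  have hrank : Module.rank E F ≤ (Module.finrank FM FN : ℕ) := by
    refine rank_le fun s hs => ?_
    have h1 := (hLD s hs).fintype_card_le_finrank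
    rwa [Fintype.card_coe] at h1
  have hfin : Module.Finite E F :=
    Module.rank_lt_aleph0_iff.mp (lt_of_le_of_lt hrank Cardinal.natCast_lt_aleph0)
  refine ⟨hfin, le_antisymm (Module.finrank_le_of_rank_le hrank) ?_⟩
  let b := Module.finBasis E F
  -- the subalgebra generated by `F` is everything
  have hW : ∀ x : FN, x ∈ Algebra.adjoin FM (Set.range iF) := by
    intro x
    have hx : x ∈ Subfield.closure (Set.range (algebraMap FM FN) ∪ Set.range iF) := by
      rw [hgen]; trivial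
    induction hx using Subfield.closure_induction with
    | mem y hy =>
      rcases hy with ⟨c, rfl⟩ | hy
      · exact Subalgebra.algebraMap_mem _ c
      · exact Algebra.subset_adjoin hy
    | one => exact one_mem _
    | add y z _ _ hy hz => exact add_mem hy hz
    | neg y _ hy => exact neg_mem hy
    | inv y _ hy =>
      exact (Algebra.adjoin FM (Set.range iF)).inv_mem_of_algebraic (x := ⟨y, hy⟩)
        (Algebra.IsAlgebraic.isAlgebraic _)
    | mul y z _ _ hy hz => exact mul_mem hy hz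
  -- it is spanned by the basis
  have hspan : Submodule.span FM (Set.range fun i => iF (b i)) = ⊤ := by
    rw [eq_top_iff]
    intro x _
    have hx := hW x
    rw [← Subalgebra.mem_toSubmodule, Algebra.adjoin_eq_span] at hx
    refine Submodule.span_le.mpr ?_ hx
    intro y hy
    have hy' : y ∈ Set.range iF := by
      have hle : Submonoid.closure (Set.range iF) ≤ (iF.rangeS).toSubmonoid :=
        Submonoid.closure_le.mpr (fun z hz => hz)
      exact hle hy
    obtain ⟨z, rfl⟩ := hy'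
    rw [← b.sum_repr z, map_sum]
    refine Submodule.sum_mem _ fun i _ => ?_
    rw [Algebra.smul_def, map_mul, hcomm, ← Algebra.smul_def]
    exact Submodule.smul_mem _ _ (Submodule.subset_span ⟨i, rfl⟩)
  have h2 := finrank_range_le_card (R := FM) (fun i => iF (b i))
  rw [Set.finrank, hspan, finrank_top, Fintype.card_fin] at h2
  exact h2

end Abstract

/-! ### The `K₀`-forms -/

open Fermat.Agent.S18 Fermat.Agent.S18.H74 Fermat.Agent.S34.H19 Fermat.Agent.S34.H61

section Coeff

variable (N : ℕ) (K₀ : IntermediateField ℚ Kb)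

/-- The `q`-expansion of an element of the `K₀`-form has coefficients in `K₀`. -/
theorem coe_mem_ratSeries {f : FN N} (hf : f ∈ ratForm N K₀) :
    (f : LaurentSeries Kb) ∈ ratSeries K₀ Kb := by
  induction hf using IntermediateField.adjoin_induction with
  | mem y hy =>
    obtain ⟨g, rfl⟩ := hy
    refine ⟨coeffMap (algebraMap ℚ K₀) (g : LaurentSeries ℚ), ?_⟩
    rw [coeffMap_coeffMap, coe_ratEmb]
    rfl
  | algebraMap c =>
    refine ⟨HahnSeries.single 0 c, ?_⟩
    rw [coeffMap_single]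
    exact (algebraMap_laurentSeries_eq_single Kb (c : Kb)).symm
  | add y z _ _ hy hz => exact add_mem hy hz
  | inv y _ hy => exact inv_mem hy
  | mul y z _ _ hy hz => exact mul_mem hy hz

/-- Every element of `F_N` is a quotient of two elements of the `ℚ̄`-algebra generated by the
`K₀`-form. -/
theorem exists_div_adjoin (g : FN N) :
    ∃ n d : FN N, n ∈ Algebra.adjoin Kb (ratForm N K₀ : Set (FN N)) ∧
      d ∈ Algebra.adjoin Kb (ratForm N K₀ : Set (FN N)) ∧ d ≠ 0 ∧ g = n / d := by
  have hg : g ∈ Subfield.closure ((ratForm N K₀ : Set (FN N)) ∪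
      Set.range (algebraMap Kb (FN N))) := by
    rw [ratForm_closure_eq_top]; trivial
  induction hg using Subfield.closure_induction with
  | mem y hy =>
    refine ⟨y, 1, ?_, one_mem _, one_ne_zero, (div_one y).symm⟩
    rcases hy with hy | ⟨c, rfl⟩
    · exact Algebra.subset_adjoin hy
    · exact Subalgebra.algebraMap_mem _ c
  | one => exact ⟨1, 1, one_mem _, one_mem _, one_ne_zero, (div_one 1).symm⟩
  | add y z _ _ hy hz =>
    obtain ⟨n₁, d₁, hn₁, hd₁, h₁, rfl⟩ := hy
    obtain ⟨n₂, d₂, hn₂, hd₂, h₂, rfl⟩ := hz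
    exact ⟨n₁ * d₂ + d₁ * n₂, d₁ * d₂, add_mem (mul_mem hn₁ hd₂) (mul_mem hd₁ hn₂),
      mul_mem hd₁ hd₂, mul_ne_zero h₁ h₂, div_add_div _ _ h₁ h₂⟩
  | neg y _ hy =>
    obtain ⟨n₁, d₁, hn₁, hd₁, h₁, rfl⟩ := hy
    exact ⟨-n₁, d₁, neg_mem hn₁, hd₁, h₁, (neg_div _ _).symm⟩
  | inv y _ hy =>
    obtain ⟨n₁, d₁, hn₁, hd₁, h₁, rfl⟩ := hy
    by_cases hn0 : n₁ = 0
    · refine ⟨0, 1, zero_mem _, one_mem _, one_ne_zero, ?_⟩
      rw [hn0, zero_div, inv_zero, zero_div]
    · exact ⟨d₁, n₁, hd₁, hn₁, hn0, inv_div _ _⟩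
  | mul y z _ _ hy hz =>
    obtain ⟨n₁, d₁, hn₁, hd₁, h₁, rfl⟩ := hy
    obtain ⟨n₂, d₂, hn₂, hd₂, h₂, rfl⟩ := hz
    exact ⟨n₁ * n₂, d₁ * d₂, mul_mem hn₁ hn₂, mul_mem hd₁ hd₂, mul_ne_zero h₁ h₂,
      div_mul_div_comm _ _ _ _⟩

/-- A coefficientwise functional maps the `ℚ̄`-algebra generated by the `K₀`-form into the
`K₀`-form. -/
theorem exists_coeffLam_of_mem_adjoin (lam : Kb →ₗ[K₀] K₀) {g : FN N}
    (hg : g ∈ Algebra.adjoin Kb (ratForm N K₀ : Set (FN N))) :
    ∃ g' : FN N, g' ∈ ratForm N K₀ ∧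
      (g' : LaurentSeries Kb) = coeffLam lam (g : LaurentSeries Kb) := by
  rw [← Subalgebra.mem_toSubmodule, Algebra.adjoin_eq_span] at hg
  induction hg using Submodule.span_induction generalizing lam with
  | mem y hy =>
    have hy' : y ∈ ratForm N K₀ := by
      have hle : Submonoid.closure (ratForm N K₀ : Set (FN N)) ≤
          (ratForm N K₀).toSubalgebra.toSubmonoid := Submonoid.closure_le.mpr (fun z hz => hz)
      exact hle hy
    refine ⟨algebraMap Kb (FN N) ((lam 1 : K₀) : Kb) * y,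
      mul_mem (algebraMap_mem_ratForm N K₀ (lam 1).2) hy', ?_⟩
    have h1 : (y : LaurentSeries Kb) = HahnSeries.single 0 (1 : Kb) * (y : LaurentSeries Kb) := by
      rw [HahnSeries.single_zero_one, one_mul]
    have h2 : ((algebraMap Kb (FN N) ((lam 1 : K₀) : Kb) * y : FN N) : LaurentSeries Kb)
        = HahnSeries.single 0 (algebraMap K₀ Kb (lam 1)) * (y : LaurentSeries Kb) := by
      rw [← algebraMap_laurentSeries_eq_single]
      rfl
    rw [h2]
    conv_rhs => rw [h1]
    exact (coeffLam_single_mul lam 1 (coe_mem_ratSeries N K₀ hy')).symm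
  | zero => exact ⟨0, zero_mem _, (coeffLam_zero lam).symm⟩
  | add y z _ _ hy hz =>
    obtain ⟨y', hy', h1⟩ := hy lam
    obtain ⟨z', hz', h2⟩ := hz lam
    refine ⟨y' + z', add_mem hy' hz', ?_⟩
    show (y' : LaurentSeries Kb) + (z' : LaurentSeries Kb)
      = coeffLam lam ((y : LaurentSeries Kb) + z)
    rw [h1, h2, coeffLam_add]
  | smul a y _ hy =>
    obtain ⟨y', hy', h1⟩ := hy (lam.comp (LinearMap.mulLeft K₀ a))
    refine ⟨y', hy', ?_⟩
    have h2 : ((a • y : FN N) : LaurentSeries Kb)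
        = HahnSeries.single 0 a * (y : LaurentSeries Kb) := by
      rw [← algebraMap_laurentSeries_eq_single]
      rfl
    rw [h1, h2, coeffLam_single_mul']

end Coeff

/-! ### The degeneracy maps on the `K₀`-forms and linear disjointness -/

section Maps

variable (M q : ℕ) [NeZero M] [NeZero q] (K₀ : IntermediateField ℚ Kb)

/-- The degeneracy map `α` on the `K₀`-forms. -/
def alphaForm : ↥(ratForm M K₀) →+* ↥(ratForm (M * q) K₀) where
  toFun x := ⟨heckeAlphaBar Kb M q (x : FN M), heckeAlphaBar_mem_ratForm M q K₀ x.2⟩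
  map_one' := Subtype.ext (map_one _)
  map_mul' _ _ := Subtype.ext (map_mul _ _ _)
  map_zero' := Subtype.ext (map_zero _)
  map_add' _ _ := Subtype.ext (map_add _ _ _)

@[simp] theorem coe_alphaForm (x : ↥(ratForm M K₀)) :
    ((alphaForm M q K₀ x : ↥(ratForm (M * q) K₀)) : FN (M * q))
      = heckeAlphaBar Kb M q (x : FN M) := rfl

/-- The degeneracy map `β` on the `K₀`-forms. -/
def betaForm : ↥(ratForm M K₀) →+* ↥(ratForm (M * q) K₀) where
  toFun x := ⟨heckeBetaBar Kb M q (x : FN M), heckeBetaBar_mem_ratForm M q K₀ x.2⟩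
  map_one' := Subtype.ext (map_one _)
  map_mul' _ _ := Subtype.ext (map_mul _ _ _)
  map_zero' := Subtype.ext (map_zero _)
  map_add' _ _ := Subtype.ext (map_add _ _ _)

@[simp] theorem coe_betaForm (x : ↥(ratForm M K₀)) :
    ((betaForm M q K₀ x : ↥(ratForm (M * q) K₀)) : FN (M * q))
      = heckeBetaBar Kb M q (x : FN M) := rfl

/-- Common denominators: finitely many elements of `F_M` can be multiplied into the
`ℚ̄`-algebra generated by the `K₀`-form. -/
theorem exists_common_den {ι : Type*} (s : Finset ι) (g : ι → FN M) :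
    ∃ D : FN M, D ≠ 0 ∧ ∀ j ∈ s, D * g j ∈ Algebra.adjoin Kb (ratForm M K₀ : Set (FN M)) := by
  classical
  choose n d hn hd hd0 hgnd using exists_div_adjoin M K₀
  refine ⟨∏ j ∈ s, d (g j), Finset.prod_ne_zero_iff.mpr (fun j _ => hd0 _), ?_⟩
  intro j hj
  have hgj : d (g j) * g j = n (g j) := by
    have h := hgnd (g j)
    rw [eq_div_iff (hd0 _)] at h
    rw [mul_comm]
    exact h
  have h1 : (∏ j ∈ s, d (g j)) * g j = (∏ x ∈ s.erase j, d (g x)) * n (g j) := by
    rw [← Finset.prod_erase_mul s _ hj, mul_assoc, hgj]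
  rw [h1]
  exact mul_mem (prod_mem fun x _ => hd _) (hn _)

/-- The `q`-expansion of the `K₀`-form of level `N`, as a ring homomorphism. -/
def qexpForm (N : ℕ) : ↥(ratForm N K₀) →+* LaurentSeries Kb :=
  ((modularFunctionFieldBar N).val : FN N →+* LaurentSeries Kb).comp
    (algebraMap ↥(ratForm N K₀) (FN N))

theorem qexpForm_apply (N : ℕ) (x : ↥(ratForm N K₀)) :
    qexpForm K₀ N x = ((x : FN N) : LaurentSeries Kb) := rfl

theorem qexpForm_alphaForm (x : ↥(ratForm M K₀)) :
    qexpForm K₀ (M * q) (alphaForm M q K₀ x) = qexpForm K₀ M x := by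
  rw [qexpForm_apply, qexpForm_apply, coe_alphaForm, coe_heckeAlphaBar]

theorem qexpForm_mem_ratSeries (N : ℕ) (x : ↥(ratForm N K₀)) :
    qexpForm K₀ N x ∈ ratSeries K₀ Kb :=
  coe_mem_ratSeries N K₀ x.2

/-- The `q`-expansion of a linear relation. -/
theorem coe_relation {ι : Type*} (s : Finset ι) (G : ι → FN M)
    (f : ι → ↥(ratForm (M * q) K₀))
    (hrel : ∑ j ∈ s, heckeAlphaBar Kb M q (G j) * (f j : FN (M * q)) = 0) :
    ∑ j ∈ s, ((G j : FN M) : LaurentSeries Kb) * qexpForm K₀ (M * q) (f j) = 0 := by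
  have h1 : ((∑ j ∈ s, heckeAlphaBar Kb M q (G j) * (f j : FN (M * q)) : FN (M * q)) :
      LaurentSeries Kb) = 0 := by
    rw [hrel]
    rfl
  have h2 : ((∑ j ∈ s, heckeAlphaBar Kb M q (G j) * (f j : FN (M * q)) : FN (M * q)) :
      LaurentSeries Kb) = ∑ j ∈ s, ((G j : FN M) : LaurentSeries Kb) *
        qexpForm K₀ (M * q) (f j) := by
    have h3 : ∀ (t : Finset ι) (F : ι → FN (M * q)),
        ((∑ j ∈ t, F j : FN (M * q)) : LaurentSeries Kb)
          = ∑ j ∈ t, ((F j : FN (M * q)) : LaurentSeries Kb) := by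
      intro t F
      exact map_sum (modularFunctionFieldBar (M * q)).val F t
    rw [h3]
    refine Finset.sum_congr rfl fun j _ => ?_
    have h4 : ((heckeAlphaBar Kb M q (G j) * (f j : FN (M * q)) : FN (M * q)) : LaurentSeries Kb)
        = ((heckeAlphaBar Kb M q (G j) : FN (M * q)) : LaurentSeries Kb)
          * ((f j : FN (M * q)) : LaurentSeries Kb) := rfl
    rw [h4, coe_heckeAlphaBar, qexpForm_apply]
  exact h2.symm.trans h1

/-- A coefficientwise functional applied to a linear relation. -/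
theorem exists_coeffLam_relation (lam : Kb →ₗ[K₀] K₀) {ι : Type*} (s : Finset ι)
    (G : ι → FN M) (hG : ∀ j ∈ s, G j ∈ Algebra.adjoin Kb (ratForm M K₀ : Set (FN M)))
    (f : ι → ↥(ratForm (M * q) K₀))
    (hrel : ∑ j ∈ s, heckeAlphaBar Kb M q (G j) * (f j : FN (M * q)) = 0) :
    ∃ g' : ι → ↥(ratForm M K₀),
      (∀ j ∈ s, qexpForm K₀ M (g' j) = coeffLam lam ((G j : FN M) : LaurentSeries Kb)) ∧
      ∑ j ∈ s, alphaForm M q K₀ (g' j) * f j = 0 := by
  classical
  have hex : ∀ j, ∃ g' : ↥(ratForm M K₀),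
      (j ∈ s → qexpForm K₀ M g' = coeffLam lam ((G j : FN M) : LaurentSeries Kb)) := by
    intro j
    by_cases hj : j ∈ s
    · obtain ⟨g', hg'1, hg'2⟩ := exists_coeffLam_of_mem_adjoin M K₀ lam (hG j hj)
      exact ⟨⟨g', hg'1⟩, fun _ => hg'2⟩
    · exact ⟨0, fun h => absurd h hj⟩
  choose g' hg'eq using hex
  refine ⟨g', fun j hj => hg'eq j hj, ?_⟩
  have hrel' := coe_relation M q K₀ s G f hrel
  have e1 : ∀ j ∈ s, qexpForm K₀ (M * q) (alphaForm M q K₀ (g' j) * f j)
      = coeffLam lam (((G j : FN M) : LaurentSeries Kb) * qexpForm K₀ (M * q) (f j)) := by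
    intro j hj
    rw [map_mul, qexpForm_alphaForm, hg'eq j hj,
      coeffLam_mul lam _ (qexpForm_mem_ratSeries K₀ (M * q) (f j))]
  have e3 : qexpForm K₀ (M * q) (∑ j ∈ s, alphaForm M q K₀ (g' j) * f j) = 0 := by
    rw [map_sum, Finset.sum_congr rfl e1, ← coeffLam_sum, hrel', coeffLam_zero]
  exact (map_eq_zero_iff _ (qexpForm K₀ (M * q)).injective).mp e3

/-- **Linear disjointness.**  A family of the `K₀`-form of level `M q` which is linearly
independent over the `K₀`-form of level `M` (along `α`) is linearly independent over `F_M`. -/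
theorem linearIndependent_ratForm {ι : Type*} (f : ι → ↥(ratForm (M * q) K₀))
    (hf : letI : Module ↥(ratForm M K₀) ↥(ratForm (M * q) K₀) :=
        (alphaForm M q K₀).toAlgebra.toModule
      LinearIndependent ↥(ratForm M K₀) f) :
    letI := algebraAlong (heckeAlphaBar Kb M q)
    LinearIndependent (FN M) (fun i => (f i : FN (M * q))) := by
  classical
  letI : Module ↥(ratForm M K₀) ↥(ratForm (M * q) K₀) := (alphaForm M q K₀).toAlgebra.toModule
  letI := algebraAlong (heckeAlphaBar Kb M q)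
  rw [linearIndependent_iff'] at hf ⊢
  intro s g hg i hi
  have hg' : ∑ j ∈ s, heckeAlphaBar Kb M q (g j) * (f j : FN (M * q)) = 0 := hg
  obtain ⟨D, hD0, hDg⟩ := exists_common_den M K₀ s g
  have hrel : ∑ j ∈ s, heckeAlphaBar Kb M q (D * g j) * (f j : FN (M * q)) = 0 := by
    have e2 : ∑ j ∈ s, heckeAlphaBar Kb M q (D * g j) * (f j : FN (M * q))
        = heckeAlphaBar Kb M q D * ∑ j ∈ s, heckeAlphaBar Kb M q (g j) * (f j : FN (M * q)) := by
      rw [Finset.mul_sum]
      refine Finset.sum_congr rfl fun j _ => ?_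
      rw [map_mul, mul_assoc]
    rw [e2, hg', mul_zero]
  -- it suffices to kill the coefficientwise functionals
  suffices hsuff : ∀ lam : Kb →ₗ[K₀] K₀,
      coeffLam lam ((D * g i : FN M) : LaurentSeries Kb) = 0 by
    have h1 : ((D * g i : FN M) : LaurentSeries Kb) = 0 := eq_zero_of_coeffLam _ hsuff
    have h2 : D * g i = 0 := Subtype.ext h1
    exact (mul_eq_zero.mp h2).resolve_left hD0
  intro lam
  obtain ⟨g', hg'eq, hsum⟩ := exists_coeffLam_relation M q K₀ lam s (fun j => D * g j) hDg f hrel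
  have h3 : g' i = 0 := hf s g' hsum i hi
  rw [← hg'eq i hi, h3, map_zero]

end Maps

/-! ### The degree at the discrete level -/

section Degree

variable (M q : ℕ) [NeZero M] [NeZero q] (K₀ : IntermediateField ℚ Kb)

/-- `F_{Mq}` is generated by `α(F_M)` and the `K₀`-form. -/
theorem closure_alpha_ratForm :
    letI := algebraAlong (heckeAlphaBar Kb M q)
    Subfield.closure (Set.range (algebraMap (FN M) (FN (M * q))) ∪
      Set.range (algebraMap ↥(ratForm (M * q) K₀) (FN (M * q)))) = ⊤ := by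
  letI := algebraAlong (heckeAlphaBar Kb M q)
  rw [eq_top_iff, ← ratForm_closure_eq_top (M * q) K₀]
  refine Subfield.closure_le.mpr ?_
  rintro x (hx | ⟨c, rfl⟩)
  · exact Subfield.subset_closure (Or.inr ⟨⟨x, hx⟩, rfl⟩)
  · exact Subfield.subset_closure
      (Or.inl ⟨algebraMap Kb (FN M) c, (heckeAlphaBar Kb M q).commutes c⟩)

/-- **(F-DEG)**  The degree of the `K₀`-form of level `M q` over the `K₀`-form of level `M`
(along `α`) is `q + 1`, for a prime `q ∤ M`. -/
theorem finrank_ratForm (hq : q.Prime) (hqM : ¬ q ∣ M) :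
    letI : Algebra ↥(ratForm M K₀) ↥(ratForm (M * q) K₀) := (alphaForm M q K₀).toAlgebra
    letI : Module ↥(ratForm M K₀) ↥(ratForm (M * q) K₀) := (alphaForm M q K₀).toAlgebra.toModule
    Module.Finite ↥(ratForm M K₀) ↥(ratForm (M * q) K₀) ∧
      Module.finrank ↥(ratForm M K₀) ↥(ratForm (M * q) K₀) = q + 1 := by
  letI algE : Algebra ↥(ratForm M K₀) ↥(ratForm (M * q) K₀) := (alphaForm M q K₀).toAlgebra
  letI algF : Algebra (FN M) (FN (M * q)) := algebraAlong (heckeAlphaBar Kb M q)
  haveI hfin : FiniteDimensional (FN M) (FN (M * q)) := Fermat.Agent.S37.H87.finiteAlong_alpha M q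
  have h := @finrank_eq_of_linearDisjoint (FN M) (FN (M * q)) _ _ algF hfin
    ↥(ratForm M K₀) ↥(ratForm (M * q) K₀) _ _ algE
    (algebraMap ↥(ratForm M K₀) (FN M)) (algebraMap ↥(ratForm (M * q) K₀) (FN (M * q)))
    (fun e => rfl) (fun s hs => linearIndependent_ratForm M q K₀ _ hs)
    (closure_alpha_ratForm M q K₀)
  have hdeg : Module.finrank (FN M) (FN (M * q)) = q + 1 :=
    Fermat.Agent.S37.H87.finrankAlong_alpha_prime M q hq hqM
  rw [hdeg] at h
  exact h

end Degree

/-! ### The two-extension package at the discrete level -/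

section Pack

theorem jF_mem_ratForm (N : ℕ) (K₀ : IntermediateField ℚ Kb) (d : N.divisors) :
    Fermat.Agent.S24.jF N d ∈ ratForm N K₀ := by
  have hd : (d : ℕ) ∣ N := Nat.dvd_of_mem_divisors d.2
  have : NeZero (d : ℕ) := ⟨fun h0 => (Nat.mem_divisors.mp d.2).2 (Nat.eq_zero_of_zero_dvd (h0 ▸ hd))⟩
  have h : Fermat.Agent.S24.jF N d = ratEmb N ⟨qExpand ℚ (d : ℕ) jq, jqd_mem_full N hd⟩ := rfl
  rw [h]
  exact ratEmb_mem_ratForm N K₀ _

theorem jgen_mem_ratForm (N : ℕ) [NeZero N] (K₀ : IntermediateField ℚ Kb) :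
    Fermat.Agent.S24.jgen N ∈ ratForm N K₀ :=
  jF_mem_ratForm N K₀ _

variable {M q : ℕ} [NeZero M] [hqF : Fact q.Prime] {hqM : ¬ q ∣ M} {A : ValuationSubring Kb}
  {hA : A.LiesOverPrime q} {O₁ : ValuationSubring (FN (M * q))}
  {w : FN (M * q) ≃+* FN (M * q)}

/-- The Atkin–Lehner involution on the `K₀`-form of level `M q`. -/
def wForm (hTG : TwoGauss M q hqM A hA O₁ w) (K₀ : IntermediateField ℚ Kb) :
    ↥(ratForm (M * q) K₀) ≃+* ↥(ratForm (M * q) K₀) where
  toFun f := ⟨w f, w_mem_ratForm hTG K₀ f.2⟩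
  invFun f := ⟨w f, w_mem_ratForm hTG K₀ f.2⟩
  left_inv _ := Subtype.ext (hTG.w_w _)
  right_inv _ := Subtype.ext (hTG.w_w _)
  map_mul' _ _ := Subtype.ext (map_mul _ _ _)
  map_add' _ _ := Subtype.ext (map_add _ _ _)

@[simp] theorem coe_wForm (hTG : TwoGauss M q hqM A hA O₁ w) (K₀ : IntermediateField ℚ Kb)
    (f : ↥(ratForm (M * q) K₀)) :
    ((wForm hTG K₀ f : ↥(ratForm (M * q) K₀)) : FN (M * q)) = w (f : FN (M * q)) := rfl

theorem wForm_wForm (hTG : TwoGauss M q hqM A hA O₁ w) (K₀ : IntermediateField ℚ Kb)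
    (f : ↥(ratForm (M * q) K₀)) : wForm hTG K₀ (wForm hTG K₀ f) = f :=
  Subtype.ext (hTG.w_w _)

theorem wForm_alphaForm (hTG : TwoGauss M q hqM A hA O₁ w) (K₀ : IntermediateField ℚ Kb)
    (x : ↥(ratForm M K₀)) : wForm hTG K₀ (alphaForm M q K₀ x) = betaForm M q K₀ x :=
  Subtype.ext (hTG.w_alpha _)

theorem wForm_betaForm (hTG : TwoGauss M q hqM A hA O₁ w) (K₀ : IntermediateField ℚ Kb)
    (x : ↥(ratForm M K₀)) : wForm hTG K₀ (betaForm M q K₀ x) = alphaForm M q K₀ x :=
  Subtype.ext (hTG.w_beta _)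

/-- `w` exchanges the two Gauss rings restricted to the `K₀`-form. -/
theorem mem_gaussTwo_comap_iff (hTG : TwoGauss M q hqM A hA O₁ w) (K₀ : IntermediateField ℚ Kb)
    (f : ↥(ratForm (M * q) K₀)) :
    f ∈ (gaussTwo M q O₁ w).comap (algebraMap ↥(ratForm (M * q) K₀) (FN (M * q))) ↔
      wForm hTG K₀ f ∈ O₁.comap (algebraMap ↥(ratForm (M * q) K₀) (FN (M * q))) := Iff.rfl

/-- `w` fixes the constants of the `K₀`-form. -/
theorem wForm_algebraMap (hTG : TwoGauss M q hqM A hA O₁ w) (K₀ : IntermediateField ℚ Kb)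
    (c : K₀) : wForm hTG K₀ (algebraMap K₀ ↥(ratForm (M * q) K₀) c)
      = algebraMap K₀ ↥(ratForm (M * q) K₀) c :=
  Subtype.ext (hTG.w_algebraMap (c : Kb))

/-- Membership in the maximal ideal of a restricted valuation ring. -/
theorem mem_nonunits_comap_iff {F F' : Type*} [Field F] [Field F'] (φ : F →+* F')
    (O : ValuationSubring F') (f : F) : f ∈ (O.comap φ).nonunits ↔ φ f ∈ O.nonunits :=
  (mem_nonunits_iff_of_mem_iff φ (O.comap φ) O (fun _ => Iff.rfl) f).symm

/-- **(PACK)**  The two-extension lemma for the restrictions to the `K₀`-forms: the Gauss ring of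
level `M` has exactly the two extensions `O₁ ∩ F₀`, `O₂ ∩ F₀` to the `K₀`-form of level `M q`,
both with `e = 1`, and `f(O₁ ∩ F₀) = 1`. -/
theorem twoExt_ratForm (hTG : TwoGauss M q hqM A hA O₁ w) (K₀ : IntermediateField ℚ Kb)
    [IsDiscreteValuationRing ↥((Fermat.Agent.S18.H66.gaussO A M hA hqM).comap
      (algebraMap ↥(ratForm M K₀) (FN M)))] :
    @TwoExt ↥(ratForm M K₀) ↥(ratForm (M * q) K₀) _ _ (alphaForm M q K₀).toAlgebra
      ((Fermat.Agent.S18.H66.gaussO A M hA hqM).comap (algebraMap ↥(ratForm M K₀) (FN M)))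
      (O₁.comap (algebraMap ↥(ratForm (M * q) K₀) (FN (M * q))))
      ((gaussTwo M q O₁ w).comap (algebraMap ↥(ratForm (M * q) K₀) (FN (M * q)))) := by
  letI algE : Algebra ↥(ratForm M K₀) ↥(ratForm (M * q) K₀) := (alphaForm M q K₀).toAlgebra
  letI modE : Module ↥(ratForm M K₀) ↥(ratForm (M * q) K₀) := algE.toModule
  have hq : q.Prime := hqF.out
  obtain ⟨hfin, hdeg⟩ := finrank_ratForm M q K₀ hq hqM
  haveI : FiniteDimensional ↥(ratForm M K₀) ↥(ratForm (M * q) K₀) := hfin
  haveI : CharZero ↥(ratForm M K₀) :=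
    charZero_of_injective_algebraMap (algebraMap K₀ ↥(ratForm M K₀)).injective
  have hjM : Fermat.Agent.S24.jgen M ∈ ratForm M K₀ := jgen_mem_ratForm M K₀
  have hO₂ : ∀ g : FN (M * q), g ∈ gaussTwo M q O₁ w ↔ g ∈ secondGauss O₁ w := fun _ => Iff.rfl
  have hO₂n : ∀ g : FN (M * q), g ∈ (gaussTwo M q O₁ w).nonunits ↔
      g ∈ (secondGauss O₁ w).nonunits := fun _ => Iff.rfl
  refine Fermat.Agent.S34.H6.twoExtStatement ↥(ratForm M K₀) ↥(ratForm (M * q) K₀) _ q hq ?_
    hdeg _ _ ?_ ?_ ?_ (betaForm M q K₀ ⟨Fermat.Agent.S24.jgen M, hjM⟩) ?_ ?_ ?_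
  · -- `q` is not a unit
    rw [mem_nonunits_comap_iff, map_natCast]
    have h1 : ((q : Kb)) ∈ A.nonunits := hA
    have h2 := (mem_nonunits_iff_of_mem_iff (algebraMap Kb (FN M)) A
      (Fermat.Agent.S18.H66.gaussO A M hA hqM) (fun a => by
        rw [← gaussQ_eq_gaussO A hA M hqM]
        exact algebraMap_mem_gaussQ_iff A hA M a) (q : Kb)).mpr h1
    rwa [map_natCast] at h2
  · -- `O₁ ∩ F₀` lies over the Gauss ring
    ext x
    exact hTG.alpha_mem_iff (x : FN M)
  · -- `O₂ ∩ F₀` lies over the Gauss ring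
    ext x
    exact hTG.alpha_mem_iff₂ (x : FN M)
  · -- the two restrictions are different
    intro heq
    have hu1 := hTG.sep_mem_nonunits
    have hu2 := hTG.sep_not_mem_nonunits₂
    rw [ValuationSubring.mem_nonunits_iff_or] at hu1 hu2
    rw [not_or, not_not] at hu2
    rcases hu1 with h0 | h1
    · exact hu2.1 h0
    · apply h1
      have h3 : (betaForm M q K₀ ⟨Fermat.Agent.S24.jgen M, hjM⟩ -
          alphaForm M q K₀ ⟨Fermat.Agent.S24.jgen M, hjM⟩ ^ q)⁻¹ ∈
          (gaussTwo M q O₁ w).comap (algebraMap ↥(ratForm (M * q) K₀) (FN (M * q))) := by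
        show algebraMap ↥(ratForm (M * q) K₀) (FN (M * q)) _ ∈ gaussTwo M q O₁ w
        rw [map_inv₀]
        exact hu2.2
      rw [← heq] at h3
      have h4 : algebraMap ↥(ratForm (M * q) K₀) (FN (M * q))
          (betaForm M q K₀ ⟨Fermat.Agent.S24.jgen M, hjM⟩ -
            alphaForm M q K₀ ⟨Fermat.Agent.S24.jgen M, hjM⟩ ^ q)⁻¹ ∈ O₁ := h3
      rw [map_inv₀] at h4
      exact h4
  · -- `β j ∈ O₂`
    exact hTG.betaj_mem₂
  · -- `(β j)^q ≡ α j`
    refine ⟨⟨Fermat.Agent.S24.jgen M, hjM⟩, hTG.jgen_mem, ?_⟩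
    rw [mem_nonunits_comap_iff]
    exact hTG.betaj_pow_sub_mem_nonunits₂
  · -- `β j` is not congruent to an element of the base
    intro v hv hmem
    rw [mem_nonunits_comap_iff] at hmem
    exact hTG.betaj_sub_alpha_not_mem₂ (v : FN M) hv hmem

/-! ### Adapters for the consumers (`H10.semiGood_of_dsetup`) -/

omit hqF in
/-- `α` fixes the constants of the `K₀`-form. -/
theorem alphaForm_algebraMap [NeZero q] (K₀ : IntermediateField ℚ Kb) (c : K₀) :
    alphaForm M q K₀ (algebraMap K₀ ↥(ratForm M K₀) c) = algebraMap K₀ ↥(ratForm (M * q) K₀) c :=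
  Subtype.ext ((heckeAlphaBar Kb M q).commutes (c : Kb))

omit hqF in
/-- `β` fixes the constants of the `K₀`-form. -/
theorem betaForm_algebraMap [NeZero q] (K₀ : IntermediateField ℚ Kb) (c : K₀) :
    betaForm M q K₀ (algebraMap K₀ ↥(ratForm M K₀) c) = algebraMap K₀ ↥(ratForm (M * q) K₀) c :=
  Subtype.ext ((heckeBetaBar Kb M q).commutes (c : Kb))

/-- The `K₀`-form of level `M q` is finite, hence algebraic, over the `K₀`-form of level `M`. -/
theorem isAlgebraic_ratForm (K₀ : IntermediateField ℚ Kb) (hqM : ¬ q ∣ M) :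
    @Algebra.IsAlgebraic ↥(ratForm M K₀) ↥(ratForm (M * q) K₀) _ _
      (alphaForm M q K₀).toAlgebra := by
  letI algE : Algebra ↥(ratForm M K₀) ↥(ratForm (M * q) K₀) := (alphaForm M q K₀).toAlgebra
  letI modE : Module ↥(ratForm M K₀) ↥(ratForm (M * q) K₀) := algE.toModule
  haveI : Module.Finite ↥(ratForm M K₀) ↥(ratForm (M * q) K₀) :=
    (finrank_ratForm M q K₀ hqF.out hqM).1
  exact Algebra.IsAlgebraic.of_finite _ _

/-- `(O₁ ∩ F₀) ∩ α(E₀) = α(O_M ∩ E₀)`. -/
theorem alphaForm_mem_comap_iff (hTG : TwoGauss M q hqM A hA O₁ w)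
    (K₀ : IntermediateField ℚ Kb) (v : ↥(ratForm M K₀)) :
    alphaForm M q K₀ v ∈ O₁.comap (algebraMap ↥(ratForm (M * q) K₀) (FN (M * q))) ↔
      v ∈ (Fermat.Agent.S18.H66.gaussO A M hA hqM).comap (algebraMap ↥(ratForm M K₀) (FN M)) :=
  hTG.alpha_mem_iff (v : FN M)

/-- `(O₂ ∩ F₀) ∩ α(E₀) = α(O_M ∩ E₀)`. -/
theorem alphaForm_mem_comap_iff₂ (hTG : TwoGauss M q hqM A hA O₁ w)
    (K₀ : IntermediateField ℚ Kb) (v : ↥(ratForm M K₀)) :
    alphaForm M q K₀ v ∈
        (gaussTwo M q O₁ w).comap (algebraMap ↥(ratForm (M * q) K₀) (FN (M * q))) ↔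
      v ∈ (Fermat.Agent.S18.H66.gaussO A M hA hqM).comap (algebraMap ↥(ratForm M K₀) (FN M)) :=
  hTG.alpha_mem_iff₂ (v : FN M)

/-- `(O₁ ∩ F₀) ∩ β(E₀) = β(O_M ∩ E₀)`. -/
theorem betaForm_mem_comap_iff (hTG : TwoGauss M q hqM A hA O₁ w)
    (K₀ : IntermediateField ℚ Kb) (v : ↥(ratForm M K₀)) :
    betaForm M q K₀ v ∈ O₁.comap (algebraMap ↥(ratForm (M * q) K₀) (FN (M * q))) ↔
      v ∈ (Fermat.Agent.S18.H66.gaussO A M hA hqM).comap (algebraMap ↥(ratForm M K₀) (FN M)) :=
  hTG.beta_mem_iff (v : FN M)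

/-- `(O₂ ∩ F₀) ∩ β(E₀) = β(O_M ∩ E₀)`. -/
theorem betaForm_mem_comap_iff₂ (hTG : TwoGauss M q hqM A hA O₁ w)
    (K₀ : IntermediateField ℚ Kb) (v : ↥(ratForm M K₀)) :
    betaForm M q K₀ v ∈
        (gaussTwo M q O₁ w).comap (algebraMap ↥(ratForm (M * q) K₀) (FN (M * q))) ↔
      v ∈ (Fermat.Agent.S18.H66.gaussO A M hA hqM).comap (algebraMap ↥(ratForm M K₀) (FN M)) :=
  hTG.beta_mem_iff₂ (v : FN M)

end Pack

end Fermat.Agent.S34.H64
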