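/-
S34 (helper64): the frozen statement from the leaves of S31 plus ONE new leaf, the binding
interface `B1Statement N q p` of lead note 22.

`isUnipotentOnInertiaAt_of_leaves`: if `H : HeckeGaloisRepDatum N S 𝒪 θ T` with `p ∈ S` and the
primes of `N` in `S`, then `H.ρ` is unipotent on inertia at the prime `q`,
PROVIDED the five leaves of S31 (`AJLeaf`, `ESLeaf`, `CycLeaf`, `StableLeaf`, `HALeaf`, all landed
for S31), `q ≠ p`, and

  `B1Statement N q p` : there is `a` such that for `τ` in an inertia group at `q`: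
                        `p ^ a (τ - 1)² = 0` on the `p`-power torsion of `J₀(N)(ℚ̄)`.

(The hypotheses `q ∣ N`, `¬ q ^ 2 ∣ N` of the frozen statement are only needed to PROVE
`B1Statement`.)

Proof.  `charpoly (ρ τ) = X² - tr · X + det`, so it suffices to show `tr ρ(τ) = 2` and
`det ρ(τ) = 1`; `T` is separated and `p`-torsion free, so it suffices to show
`p ^ a (tr ρ(τ) - 2) ∈ 𝔪_T ^ m` and `det ρ(τ) - 1 ∈ 𝔪_T ^ m` for every `m`.  With `c` the
saturation exponent of (HA), `n = m + c`, `AJ = AJ_n`, `Z ⊇ AJ(L)`, `ε` the cyclotomic character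
modulo `p ^ n` and `E` a common finite level, let `h` be a Frobenius lift at `ℓ ∉ S` with
`h ^ i ∈ τ Fix(E)`.  Then
* `tr ρ(τ) ≡ V_i(π T_ℓ, ℓ)` and `det ρ(τ) ≡ ℓ ^ i` modulo `𝔪_T ^ m`;
* `ℓ ^ i ≡ ε(τ) = 1` modulo `p ^ n`;
* on `Z`: `V_i(T_ℓ, ℓ) = τ + ℓ ^ i τ⁻¹ = τ + τ⁻¹`, and `p ^ a (τ + τ⁻¹ - 2) = 0` by (B1), so
  `p ^ a (V_i(T_ℓ, ℓ) - 2)` kills `AJ(L)`, hence lies in `p ^ m • heckeAlgebra` by (AJ) and (HA).
-/
import Mathlib
import Fermat.Prelude.Def_GaloisRep_LocalConditions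
import Fermat.Agent.S31.H34.Top

set_option autoImplicit false

open CongruenceSubgroup ModularCurve ModularCurve.Period CuspForm Polynomial
open Fermat.Agent.S16.H75 (heckeHom)
open Fermat.Agent.S31.H35 (lucasV lucasV_zero lucasV_one lucasV_add_two map_lucasV
  trace_pow_eq_lucasV)
open Fermat.Agent.S31.H34

namespace Fermat.Agent.S34.H64

local notation "Qb" => AlgebraicClosure ℚ
local notation "Γ" => (AlgebraicClosure ℚ ≃ₐ[ℚ] AlgebraicClosure ℚ)

/-- **(B1)**, the binding interface of lead note 22: inertia at `q` acts unipotently of level two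
on the `p`-power torsion of `J₀(N)(ℚ̄)`, up to a bounded power of `p`:
`p ^ a (τ - 1)² = 0` on `J₀(N)[p ^ n]` for all `n`, with `a` independent of `n`. -/
def B1Statement (N q p : ℕ) [NeZero N] : Prop :=
  ∃ a : ℕ, ∀ (n : ℕ) (A : ValuationSubring (AlgebraicClosure ℚ)), A.LiesOverPrime q →
    ∀ τ ∈ A.inertiaSubgroupIn ℚ, ∀ x : JZero N, p ^ n • x = 0 →
      p ^ a • (τ • τ • x - 2 • τ • x + x) = 0

/-! ### Linear algebra over `T` -/

section LinAlg

variable {T V : Type*} [CommRing T] [AddCommGroup V] [Module T V] [Module.Free T V]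
  [Module.Finite T V]

/-- The characteristic polynomial of an endomorphism of a free module of rank two. -/
theorem charpoly_eq_of_finrank_two [Nontrivial T] (h : Module.finrank T V = 2)
    (f : Module.End T V) :
    LinearMap.charpoly f = X ^ 2 - C (LinearMap.trace T V f) * X + C (LinearMap.det f) := by
  classical
  let b : Module.Basis (Fin 2) T V := Module.finBasisOfFinrankEq T V h
  rw [← LinearMap.charpoly_toMatrix f b, Matrix.charpoly_fin_two,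
    LinearMap.trace_eq_matrix_trace T b f, LinearMap.det_toMatrix b f]

/-- The determinant of an endomorphism with characteristic polynomial `X² - t X + d` is `d`. -/
theorem det_eq_of_charpoly [Nontrivial T] (hV : Module.finrank T V = 2) (f : Module.End T V)
    (t d : T) (hf : f.charpoly = X ^ 2 - C t * X + C d) : LinearMap.det f = d := by
  have h1 := charpoly_eq_of_finrank_two hV f
  rw [hf] at h1
  have h2 := congrArg (fun P : T[X] => P.coeff 0) h1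
  simpa using h2.symm

/-- An endomorphism congruent to `1` modulo `I` has determinant congruent to `1` modulo `I`. -/
theorem det_sub_one_mem_of_forall_mem_smul_top (I : Ideal T) (f : Module.End T V)
    (hf : ∀ v, f v - v ∈ I • (⊤ : Submodule T V)) : LinearMap.det f - 1 ∈ I := by
  classical
  let b := Module.Free.chooseBasis T V
  have key : ∀ x ∈ I • (⊤ : Submodule T V), ∀ j, b.repr x j ∈ I := by
    intro x hx j
    refine Submodule.smul_induction_on hx ?_ ?_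
    · intro a ha v _
      rw [map_smul, Finsupp.smul_apply, smul_eq_mul]
      exact I.mul_mem_right _ ha
    · intro x y hx hy
      rw [map_add, Finsupp.add_apply]
      exact I.add_mem hx hy
  have hM : (LinearMap.toMatrix b b f).map (Ideal.Quotient.mk I) = 1 := by
    ext i j
    rw [Matrix.map_apply, LinearMap.toMatrix_apply, Matrix.one_apply]
    have h1 := key _ (hf (b j)) i
    rw [map_sub, Finsupp.sub_apply, Module.Basis.repr_self, Finsupp.single_apply] at h1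
    by_cases hij : i = j
    · rw [if_pos hij, ← sub_eq_zero, ← map_one (Ideal.Quotient.mk I), ← map_sub,
        Ideal.Quotient.eq_zero_iff_mem]
      rw [if_pos hij.symm] at h1
      exact h1
    · rw [if_neg hij, Ideal.Quotient.eq_zero_iff_mem]
      rw [if_neg (Ne.symm hij), sub_zero] at h1
      exact h1
  rw [← LinearMap.det_toMatrix b f, ← Ideal.Quotient.eq_zero_iff_mem, map_sub, map_one,
    RingHom.map_det, RingHom.mapMatrix_apply, hM, Matrix.det_one, sub_self]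

end LinAlg

/-- The determinant of `ρ g` is congruent to `d ^ i` modulo `𝔪 ^ m` when `g ≡ h ^ i` modulo the
level of `ρ mod 𝔪 ^ m` and `ρ h` has characteristic polynomial `X² - t X + d`. -/
theorem det_sub_pow_mem {T : Type} [CommRing T] [IsLocalRing T] (ρ : GaloisRepAdic T) (m : ℕ)
    (E : IntermediateField ℚ Qb)
    (hE : ∀ σ : Γ, (∀ x ∈ E, σ x = x) → ∀ v : ρ.V,
      ρ.ρ σ v - v ∈ (IsLocalRing.maximalIdeal T ^ m) • (⊤ : Submodule T ρ.V))
    (g h : Γ) (i : ℕ) (hgh : ∀ x ∈ E, (g⁻¹ * h ^ i) x = x) (t d : T)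
    (hch : LinearMap.charpoly (ρ.ρ h) = X ^ 2 - C t * X + C d) :
    LinearMap.det (ρ.ρ g) - d ^ i ∈ IsLocalRing.maximalIdeal T ^ m := by
  have h1 : ρ.ρ (h ^ i) = ρ.ρ g * ρ.ρ (g⁻¹ * h ^ i) := by
    rw [← map_mul, mul_inv_cancel_left]
  have h2 : LinearMap.det (ρ.ρ (h ^ i)) = d ^ i := by
    rw [map_pow, map_pow, det_eq_of_charpoly ρ.finrank_eq (ρ.ρ h) t d hch]
  have h3 : LinearMap.det (ρ.ρ (g⁻¹ * h ^ i)) - 1 ∈ IsLocalRing.maximalIdeal T ^ m :=
    det_sub_one_mem_of_forall_mem_smul_top _ _ (hE _ hgh)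
  have h4 : LinearMap.det (ρ.ρ g) - d ^ i =
      - (LinearMap.det (ρ.ρ g) * (LinearMap.det (ρ.ρ (g⁻¹ * h ^ i)) - 1)) := by
    rw [← h2, h1, map_mul]
    ring
  rw [h4]
  exact neg_mem (Ideal.mul_mem_left _ _ h3)

/-! ### The main theorem -/

section Main

variable {p : ℕ} {N : ℕ} [NeZero N] {S : Finset ℕ}
  {𝒪 : Type} [CommRing 𝒪] [IsDomain 𝒪] [IsDiscreteValuationRing 𝒪]
  [IsAdicComplete (IsLocalRing.maximalIdeal 𝒪) 𝒪]
  {θ : CuspForm.heckeAlgebra N 2 (↑S : Set ℕ) →+* IsLocalRing.ResidueField 𝒪}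
  {T : Type} [CommRing T] [IsLocalRing T] [IsNoetherianRing T]
  [IsAdicComplete (IsLocalRing.maximalIdeal T) T] [Algebra 𝒪 T] [IsLocalHom (algebraMap 𝒪 T)]
  [Module.Finite 𝒪 T] [Module.Free 𝒪 T]

/-- Trace `2` (up to `p ^ a`) and determinant `1` on inertia at `q`, modulo every power of
`𝔪_T`; `a` is the exponent of `B1Statement`. -/
theorem trace_sub_two_mem_and_det_sub_one_mem (hAJ : AJLeaf N p) (hES : ESLeaf N p)
    (hCyc : CycLeaf p) (hSt : StableLeaf N p) (hHA : HALeaf N p S)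
    (hp : p.Prime) (hp𝒪 : (p : 𝒪) ∈ IsLocalRing.maximalIdeal 𝒪) (hpS : p ∈ S)
    (hNS : ∀ q : ℕ, q.Prime → q ∣ N → q ∈ S)
    (H : CuspForm.HeckeGaloisRepDatum N (↑S : Set ℕ) 𝒪 θ T)
    (q : ℕ) (hq : q.Prime) (hqp : q ≠ p) (a : ℕ)
    (hB1 : ∀ (n : ℕ) (A : ValuationSubring Qb), A.LiesOverPrime q →
      ∀ τ ∈ A.inertiaSubgroupIn ℚ, ∀ x : JZero N, p ^ n • x = 0 →
        p ^ a • (τ • τ • x - 2 • τ • x + x) = 0)
    (P : ValuationSubring Qb) (hP : P.LiesOverPrime q) (τ : Γ) (hτ : τ ∈ P.inertiaSubgroupIn ℚ)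
    (m : ℕ) :
    (p : T) ^ a * (LinearMap.trace T H.ρ.V (H.ρ.ρ τ) - 2) ∈ IsLocalRing.maximalIdeal T ^ m ∧
      LinearMap.det (H.ρ.ρ τ) - 1 ∈ IsLocalRing.maximalIdeal T ^ m := by
  obtain ⟨Φ, c, hΦT, hsat⟩ := hHA
  have hpT : (p : T) ∈ IsLocalRing.maximalIdeal T := by
    have h1 := map_nonunit (algebraMap 𝒪 T) (p : 𝒪) hp𝒪
    rwa [map_natCast] at h1
  -- primes outside `S`
  have hout : ∀ ℓ : ℕ, ℓ.Prime → ℓ ∉ S → ¬ ℓ ∣ N ∧ ℓ ≠ p ∧ ¬ ℓ ∣ N * p := by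
    intro ℓ hℓ hℓS
    have h1 : ¬ ℓ ∣ N := fun h => hℓS (hNS ℓ hℓ h)
    have h2 : ℓ ≠ p := fun h => hℓS (h ▸ hpS)
    refine ⟨h1, h2, fun h => ?_⟩
    rcases (Nat.Prime.dvd_mul hℓ).1 h with h | h
    · exact h1 h
    · exact h2 ((Nat.prime_dvd_prime_iff_eq hℓ hp).1 h)
  obtain ⟨AJ, hAJker, hAJT⟩ := hAJ (m + c)
  -- the stable subgroup
  have hfin : Module.Finite ℤ (Lat N) := Fermat.Agent.S41.H40.finite_parabolicHoms_int N
  have hfg : (AJ.range).FG := by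
    have h1 : AddGroup.FG (Lat N) := Module.Finite.iff_addGroup_fg.1 hfin
    exact (AddGroup.fg_iff_addSubgroup_fg _).1 (AddGroup.fg_range AJ)
  have hAJp : ∀ x ∈ AJ.range, p ^ (m + c) • x = 0 := by
    rintro _ ⟨ψ, rfl⟩
    rw [← map_nsmul]
    exact (hAJker _).2 ⟨ψ, rfl⟩
  obtain ⟨Z, E₂, hE₂fd, hMZ, hZp, hZG, hZT, hZE⟩ := hSt (m + c) AJ.range hfg hAJp
  obtain ⟨ε, ⟨E₃, hE₃fd, hεE⟩, hεF, hεI⟩ := hCyc (m + c)
  obtain ⟨E₁, hE₁fd, hρE⟩ := H.ρ.isAdicContinuous m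
  let E : IntermediateField ℚ Qb := E₁ ⊔ E₂ ⊔ E₃
  have h12 : FiniteDimensional ℚ (E₁ ⊔ E₂ : IntermediateField ℚ Qb) :=
    IntermediateField.finiteDimensional_sup E₁ E₂
  have hEfd : FiniteDimensional ℚ E := IntermediateField.finiteDimensional_sup (E₁ ⊔ E₂) E₃
  have hE₁ : E₁ ≤ E := le_sup_left.trans le_sup_left
  have hE₂ : E₂ ≤ E := le_sup_right.trans le_sup_left
  have hE₃ : E₃ ≤ E := le_sup_right
  -- a Frobenius approximation of `τ`
  obtain ⟨ℓ, A, h, i, hℓ, hBℓ, hA, hh, -, hi, -⟩ :=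
    Fermat.Agent.S29.H69.exists_frobenius_pos_pow_mem_fixingSubgroup E τ (S.sup id)
  have hℓS : ℓ ∉ S := fun hmem => absurd (Finset.le_sup (f := id) hmem) (not_le.2 hBℓ)
  obtain ⟨hℓN, hℓp, hℓNp⟩ := hout ℓ hℓ hℓS
  have hi0 : ∀ a ∈ E, (τ⁻¹ * h ^ i) a = a := fun a ha =>
    (IntermediateField.mem_fixingSubgroup_iff E _).1 hi a ha
  have hℓS' : ℓ ∉ (↑S : Set ℕ) := fun hmem => hℓS (Finset.mem_coe.1 hmem)
  -- the cyclotomic character: `ℓ ^ i ≡ 1` modulo `p ^ (m + c)`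
  have hετ : ε τ = 1 := hεI q hq hqp P hP τ hτ
  have c3 : ℓ ^ i ≡ 1 [MOD p ^ (m + c)] := by
    have h1 : ε (h ^ i) = 1 := by
      have h3 : h ^ i = τ * (τ⁻¹ * h ^ i) := by rw [mul_inv_cancel_left]
      rw [h3, map_mul, hεE _ (fun a ha => hi0 a (hE₃ ha)), mul_one, hετ]
    have h2 : ((ℓ ^ i : ℕ) : ZMod (p ^ (m + c))) = ((1 : ℕ) : ZMod (p ^ (m + c))) := by
      rw [Nat.cast_pow, ← hεF ℓ hℓ hℓp A hA h hh, ← Units.val_pow_eq_pow_val, ← map_pow, h1,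
        Units.val_one, Nat.cast_one]
    exact (ZMod.natCast_eq_natCast_iff _ _ _).1 h2
  have hℓi : ((ℓ : T) ^ i) - 1 ∈ IsLocalRing.maximalIdeal T ^ m := by
    have h1 : p ^ (m + c) ∣ ℓ ^ i - 1 :=
      (Nat.modEq_iff_dvd' (Nat.one_le_pow _ _ hℓ.pos)).1 c3.symm
    obtain ⟨k, hk⟩ := h1
    have h2 : ℓ ^ i = 1 + p ^ (m + c) * k := by
      have := Nat.one_le_pow i ℓ hℓ.pos
      omega
    have h3 : ((ℓ : T) ^ i) - 1 = (p : T) ^ (m + c) * (k : T) := by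
      have h4 : ((ℓ ^ i : ℕ) : T) = ((1 + p ^ (m + c) * k : ℕ) : T) := by rw [h2]
      push_cast at h4
      rw [h4]
      ring
    rw [h3]
    exact Ideal.mul_mem_right _ _
      (Ideal.pow_le_pow_right (Nat.le_add_right m c) (Ideal.pow_mem_pow hpT (m + c)))
  -- the Hecke element
  let tℓ : heckeAlgebra N 2 (↑S : Set ℕ) := heckeAlgebra.T hℓ hℓN hℓS'
  let Δ : heckeAlgebra N 2 (↑S : Set ℕ) :=
    lucasV tℓ ((ℓ : ℕ) : heckeAlgebra N 2 (↑S : Set ℕ)) i - 2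
  -- the trace and determinant congruences
  have c1 := trace_sub_lucasV_mem H.ρ m E (fun σ hσ => hρE σ fun x hx => hσ x (hE₁ hx)) τ h i hi0
    (H.π tℓ) (ℓ : T) (H.charpoly_frob ℓ hℓ hℓN hℓS' A hA h hh)
  have d1 := det_sub_pow_mem H.ρ m E (fun σ hσ => hρE σ fun x hx => hσ x (hE₁ hx)) τ h i hi0
    (H.π tℓ) (ℓ : T) (H.charpoly_frob ℓ hℓ hℓN hℓS' A hA h hh)
  have hπΔ : H.π Δ = lucasV (H.π tℓ) (ℓ : T) i - 2 := by
    show H.π (lucasV tℓ ((ℓ : ℕ) : heckeAlgebra N 2 (↑S : Set ℕ)) i - 2) = _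
    rw [map_sub, map_lucasV, map_natCast, map_ofNat]
  -- on `Z`: `p ^ a (V_i(T_ℓ, ℓ) - 2) = 0`
  have hZ2 : ∀ x ∈ Z,
      p ^ a • lucasV (heckeOperatorBar N ⟨ℓ, hℓ⟩) ((ℓ : ℕ) : Module.End ℤ (JZero N)) i x
        = p ^ a • (x + x) := by
    intro x hx
    have h1 := smul_add_eq_lucasV hES (m + c) Z hZp hZG hZT E
      (fun σ hσ => hZE σ fun a ha => hσ a (hE₂ ha)) τ ℓ hℓ hℓNp A hA h hh i hi0 x hx
    have hy : τ⁻¹ • x ∈ Z := hZG τ⁻¹ x hx
    have h2 := hB1 (m + c) P hP τ hτ (τ⁻¹ • x) (hZp _ hy)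
    rw [smul_inv_smul] at h2
    rw [← h1, nsmul_eq_of_modEq c3 (hZp _ hy), one_smul]
    have h3 : τ • x + τ⁻¹ • x = (τ • x - 2 • x + τ⁻¹ • x) + (x + x) := by
      rw [two_nsmul]; abel
    rw [h3, nsmul_add, h2, zero_add]
  -- the torsion side: `Φ (p ^ a Δ)` maps the lattice into `p ^ (m + c)` times the lattice
  have hΔ : ∃ f' : heckeAlgebra N 2 (↑S : Set ℕ), p ^ a • Δ = p ^ m • f' := by
    refine hsat m (p ^ a • Δ) fun ψ => (hAJker _).1 ?_
    have hΦΔ : Φ Δ = lucasV (Φ tℓ) ((ℓ : ℕ) : Module.End ℤ (Lat N)) i - 2 := by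
      show Φ (lucasV tℓ ((ℓ : ℕ) : heckeAlgebra N 2 (↑S : Set ℕ)) i - 2) = _
      rw [map_sub, map_lucasV, map_natCast, map_ofNat]
    have h2 : (2 : Module.End ℤ (Lat N)) ψ = ψ + ψ := by
      have : (2 : Module.End ℤ (Lat N)) = 1 + 1 := by norm_num
      rw [this, LinearMap.add_apply, Module.End.one_apply]
    rw [map_nsmul, hΦΔ, LinearMap.smul_apply, map_nsmul, LinearMap.sub_apply, map_sub, h2, map_add,
      lucasV_end_semiconj AJ (Φ tℓ) (heckeOperatorBar N ⟨ℓ, hℓ⟩) ℓ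
        (fun x => (hAJT ⟨ℓ, hℓ⟩ hℓN x (Φ tℓ x) (hΦT ℓ hℓ hℓN hℓS' x)).symm) i ψ,
      nsmul_sub, hZ2 _ (hMZ ⟨ψ, rfl⟩), sub_self]
  obtain ⟨f', hf'⟩ := hΔ
  have hπΔmem : (p : T) ^ a * H.π Δ ∈ IsLocalRing.maximalIdeal T ^ m := by
    have h1 : (p : T) ^ a * H.π Δ = H.π (p ^ a • Δ) := by
      rw [map_nsmul, nsmul_eq_mul, Nat.cast_pow]
    rw [h1, hf', map_nsmul, nsmul_eq_mul, Nat.cast_pow]
    exact Ideal.mul_mem_right _ _ (Ideal.pow_mem_pow hpT m)
  constructor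
  · have hfinal : (p : T) ^ a * (LinearMap.trace T H.ρ.V (H.ρ.ρ τ) - 2) =
        (p : T) ^ a * (LinearMap.trace T H.ρ.V (H.ρ.ρ τ) - lucasV (H.π tℓ) (ℓ : T) i)
          + (p : T) ^ a * H.π Δ := by
      rw [hπΔ]
      ring
    rw [hfinal]
    exact add_mem (Ideal.mul_mem_left _ _ c1) hπΔmem
  · have hfinal : LinearMap.det (H.ρ.ρ τ) - 1 =
        (LinearMap.det (H.ρ.ρ τ) - (ℓ : T) ^ i) + ((ℓ : T) ^ i - 1) := by ring
    rw [hfinal]
    exact add_mem d1 hℓi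

omit [IsDiscreteValuationRing 𝒪] [IsAdicComplete (IsLocalRing.maximalIdeal 𝒪) 𝒪] [IsLocalRing T]
  [IsNoetherianRing T] [IsAdicComplete (IsLocalRing.maximalIdeal T) T]
  [IsLocalHom (algebraMap 𝒪 T)] [Module.Finite 𝒪 T] in
/-- Multiplication by a power of `p` is injective on `T` (free over the domain `𝒪` of
characteristic zero). -/
theorem eq_zero_of_pow_mul_eq_zero [CharZero 𝒪] (hp : p ≠ 0) (a : ℕ) {y : T}
    (h : (p : T) ^ a * y = 0) : y = 0 := by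
  have h1 : ((p : 𝒪) ^ a) • y = 0 := by
    rw [Algebra.smul_def, map_pow, map_natCast]
    exact h
  have hpa : ((p : 𝒪) ^ a) ≠ 0 := pow_ne_zero a (Nat.cast_ne_zero.mpr hp)
  let b := Module.Free.chooseBasis 𝒪 T
  have h2 : b.repr y = 0 := by
    ext j
    have h3 := congrArg (fun z => b.repr z j) h1
    simp only [map_smul, Finsupp.smul_apply, smul_eq_mul, map_zero, Finsupp.zero_apply] at h3
    rw [Finsupp.zero_apply]
    exact (mul_eq_zero.1 h3).resolve_left hpa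
  exact b.repr.map_eq_zero_iff.1 h2

/-- **S34 from its leaves**: the five leaves of S31 and `B1Statement N q p`. -/
theorem isUnipotentOnInertiaAt_of_leaves [CharZero 𝒪] (hAJ : AJLeaf N p) (hES : ESLeaf N p)
    (hCyc : CycLeaf p) (hSt : StableLeaf N p) (hHA : HALeaf N p S)
    (hp : p.Prime) (hp𝒪 : (p : 𝒪) ∈ IsLocalRing.maximalIdeal 𝒪) (hpS : p ∈ S)
    (hNS : ∀ q : ℕ, q.Prime → q ∣ N → q ∈ S)
    (H : CuspForm.HeckeGaloisRepDatum N (↑S : Set ℕ) 𝒪 θ T)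
    (q : ℕ) (hq : q.Prime) (hqp : q ≠ p) (hB1 : B1Statement N q p) :
    H.ρ.IsUnipotentOnInertiaAt q := by
  obtain ⟨a, hB1⟩ := hB1
  intro P hP τ hτ
  have key := trace_sub_two_mem_and_det_sub_one_mem hAJ hES hCyc hSt hHA hp hp𝒪 hpS hNS H q hq
    hqp a hB1 P hP τ hτ
  have haus : IsHausdorff (IsLocalRing.maximalIdeal T) T := inferInstance
  have htr : LinearMap.trace T H.ρ.V (H.ρ.ρ τ) = 2 := by
    rw [← sub_eq_zero]
    apply eq_zero_of_pow_mul_eq_zero (𝒪 := 𝒪) hp.ne_zero a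
    refine IsHausdorff.haus haus _ fun m => ?_
    rw [SModEq.zero, smul_eq_mul, Ideal.mul_top]
    exact (key m).1
  have hdet : LinearMap.det (H.ρ.ρ τ) = 1 := by
    rw [← sub_eq_zero]
    refine IsHausdorff.haus haus _ fun m => ?_
    rw [SModEq.zero, smul_eq_mul, Ideal.mul_top]
    exact (key m).2
  rw [charpoly_eq_of_finrank_two H.ρ.finrank_eq, htr, hdet, map_ofNat, map_one]
  ring

end Main

end Fermat.Agent.S34.H64
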