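/-
S34 / Program B', leaf M6b (crossing points), piece X2 (helper64): **the V-block of the regular
node on the `K₀`-forms**, for an ARBITRARY intermediate field `K₀` of `ℚ̄ / ℚ` (no normality, no
finiteness: in the application `K₀` is the inertia field `E` of `A` in a normal number field).

In the vocabulary of `H68.crossing_regular_of_dsetup(_le)`:

* `A₀ = A ∩ K₀`, `K = ratForm M K₀`, `L = ratForm (M q) K₀`, with the algebra structures
  `H19.algComap` (on `K` and on `L`) and `H61.algAlpha M q K₀` (`K → L` along `α`);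
* `O₀ = H61.gaussForm`, `V₁ = H61.gaussOne`, `V₂ = H61.gaussTwoForm` (by `rfl` the comaps of
  `gaussO`, `O₁`, `gaussTwo` along the inclusions of the forms).

`vblock_ratForm` : the instance hypotheses `IsScalarTower A₀ K L`, `FaithfulSMul A₀ K`,
`FiniteDimensional K L` and the hypotheses `hS`, `hc₁`, `hc₂`, `hT`, `hne`, `hdeg` of the node
theorem, for an admissible base function (`H30.IsBase`) and any uniformiser `ϖ` of `A ∩ K₀`.
Everything is a citation of helper61's `FormMaps` / `Concrete3` and helper59's `FDeg`.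
-/
import Fermat.Agent.S34.H61.Concrete3
import Fermat.Agent.S34.H59.FDeg
import Fermat.Agent.S34.H30.Leaves
import Fermat.Agent.S34.H78.L6

set_option autoImplicit false
set_option linter.style.haveILetI false
set_option linter.unusedSectionVars false

open ModularCurve AlgebraicCurve

noncomputable section

namespace Fermat.Agent.S34.H64

open Fermat.Agent.S18 Fermat.Agent.S18.H74 Fermat.Agent.S34.H19 Fermat.Agent.S34.H61

section VBlock

variable {M q : ℕ} [NeZero M] [hqF : Fact q.Prime] {hqM : ¬ q ∣ M} {A : ValuationSubring Kb}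
  {hA : A.LiesOverPrime q} {O₁ : ValuationSubring (FN (M * q))}
  {w : FN (M * q) ≃+* FN (M * q)}

/-- The descended setup of an admissible base function over an arbitrary intermediate field. -/
theorem dsetup_of_isBase {x₀ : FN M} (hx₀ : Fermat.Agent.S34.H30.IsBase M q hqM A hA x₀)
    (K₀ : IntermediateField ℚ Kb) (hx : x₀ ∈ ratForm M K₀) :
    @Fermat.Agent.S18.H19.DSetup ↥(A.comap (algebraMap K₀ Kb)) _ ↥(ratForm M K₀) _
      (Fermat.Agent.S18.H19.algComap (A.comap (algebraMap K₀ Kb)) (ratForm M K₀))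
      (gaussForm M hqM A hA K₀) (⟨x₀, hx⟩ : ↥(ratForm M K₀)) :=
  (hx₀.2 K₀ hx).1

/-- The descended setup of the inverse of an admissible base function. -/
theorem dsetup_inv_of_isBase {x₀ : FN M} (hx₀ : Fermat.Agent.S34.H30.IsBase M q hqM A hA x₀)
    (K₀ : IntermediateField ℚ Kb) (hx : x₀ ∈ ratForm M K₀) :
    @Fermat.Agent.S18.H19.DSetup ↥(A.comap (algebraMap K₀ Kb)) _ ↥(ratForm M K₀) _
      (Fermat.Agent.S18.H19.algComap (A.comap (algebraMap K₀ Kb)) (ratForm M K₀))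
      (gaussForm M hqM A hA K₀) (⟨x₀, hx⟩ : ↥(ratForm M K₀))⁻¹ :=
  (hx₀.2 K₀ hx).2

/-- An admissible base function lies in every `K₀`-form. -/
theorem mem_ratForm_of_isBase {x₀ : FN M} (hx₀ : Fermat.Agent.S34.H30.IsBase M q hqM A hA x₀)
    (K₀ : IntermediateField ℚ Kb) : x₀ ∈ ratForm M K₀ :=
  mem_ratForm_of_mem_range M K₀ hx₀.1

/-- The Gauss ring of the `K₀`-form at level `M` is a discrete valuation ring. -/
theorem isDVR_gaussForm {x₀ : FN M} (hx₀ : Fermat.Agent.S34.H30.IsBase M q hqM A hA x₀)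
    (K₀ : IntermediateField ℚ Kb) [IsDiscreteValuationRing ↥(A.comap (algebraMap K₀ Kb))]
    {ϖ : ↥(A.comap (algebraMap K₀ Kb))} (hϖ : Irreducible ϖ) :
    IsDiscreteValuationRing ↥(gaussForm M hqM A hA K₀) :=
  @Fermat.Agent.S34.H10.isDiscreteValuationRing_of_dsetup ↥(A.comap (algebraMap K₀ Kb)) _
    ↥(ratForm M K₀) _
    (Fermat.Agent.S18.H19.algComap (A.comap (algebraMap K₀ Kb)) (ratForm M K₀)) _ _ ϖ hϖ
    (gaussForm M hqM A hA K₀) _
    (dsetup_of_isBase hx₀ K₀ (mem_ratForm_of_isBase hx₀ K₀))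

/-- `hc₁` : `V₁ ∩ α(K) = α(O₀)`. -/
theorem vblock_hc₁ (hTG : TwoGauss M q hqM A hA O₁ w) (K₀ : IntermediateField ℚ Kb) :
    haveI : NeZero q := ⟨hqF.out.ne_zero⟩
    ∀ v : ↥(ratForm M K₀),
      @algebraMap ↥(ratForm M K₀) ↥(ratForm (M * q) K₀) _ _ (algAlpha M q K₀) v ∈
        gaussOne M q O₁ K₀ ↔ v ∈ gaussForm M hqM A hA K₀ :=
  fun v => Fermat.Agent.S34.H61.alphaForm_mem_comap_iff hTG K₀ v

/-- `hc₂` : `V₂ ∩ α(K) = α(O₀)`. -/
theorem vblock_hc₂ (hTG : TwoGauss M q hqM A hA O₁ w) (K₀ : IntermediateField ℚ Kb) :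
    haveI : NeZero q := ⟨hqF.out.ne_zero⟩
    ∀ v : ↥(ratForm M K₀),
      @algebraMap ↥(ratForm M K₀) ↥(ratForm (M * q) K₀) _ _ (algAlpha M q K₀) v ∈
        gaussTwoForm M q O₁ w K₀ ↔ v ∈ gaussForm M hqM A hA K₀ :=
  fun v => Fermat.Agent.S34.H61.alphaForm_mem_comap_gaussTwo_iff hTG K₀ v

/-- `hdeg` : the degree of the `K₀`-forms along `α` is `q + 1`. -/
theorem vblock_hdeg (M q : ℕ) [NeZero M] [hqF : Fact q.Prime] (hqM : ¬ q ∣ M)
    (K₀ : IntermediateField ℚ Kb) :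
    haveI : NeZero q := ⟨hqF.out.ne_zero⟩
    @Module.finrank ↥(ratForm M K₀) ↥(ratForm (M * q) K₀) _ _ (algAlpha M q K₀).toModule
      = q + 1 :=
  haveI : NeZero q := ⟨hqF.out.ne_zero⟩
  Fermat.Agent.S34.H59.finrank_alphaForm M q K₀ hqF.out hqM

/-- `FiniteDimensional K L` along `α`. -/
theorem vblock_finite (M q : ℕ) [NeZero M] [hqF : Fact q.Prime] (hqM : ¬ q ∣ M)
    (K₀ : IntermediateField ℚ Kb) :
    haveI : NeZero q := ⟨hqF.out.ne_zero⟩
    @FiniteDimensional ↥(ratForm M K₀) ↥(ratForm (M * q) K₀) _ _ (algAlpha M q K₀).toModule :=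
  haveI : NeZero q := ⟨hqF.out.ne_zero⟩
  Fermat.Agent.S34.H59.finite_alphaForm M q K₀ hqF.out hqM

/-- `hT` : the two-extension property of the two Gauss rings over the level-`M` Gauss ring. -/
theorem vblock_hT (hTG : TwoGauss M q hqM A hA O₁ w) {x₀ : FN M}
    (hx₀ : Fermat.Agent.S34.H30.IsBase M q hqM A hA x₀)
    (K₀ : IntermediateField ℚ Kb) [IsDiscreteValuationRing ↥(A.comap (algebraMap K₀ Kb))]
    {ϖ : ↥(A.comap (algebraMap K₀ Kb))} (hϖ : Irreducible ϖ) :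
    haveI : NeZero q := ⟨hqF.out.ne_zero⟩
    @TwoExt ↥(ratForm M K₀) ↥(ratForm (M * q) K₀) _ _ (algAlpha M q K₀)
      (gaussForm M hqM A hA K₀) (gaussOne M q O₁ K₀) (gaussTwoForm M q O₁ w K₀) :=
  Fermat.Agent.S34.H61.twoExt_ratForm hTG K₀ (isDVR_gaussForm hx₀ K₀ hϖ) (vblock_hdeg M q hqM K₀)

/-- **The V-block of the regular node on the `K₀`-forms** (X2): the instance hypotheses
`IsScalarTower A₀ K L`, `FaithfulSMul A₀ K`, `FiniteDimensional K L` and the hypotheses `hS`,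
`hc₁`, `hc₂`, `hT`, `hne`, `hdeg` of `H68.crossing_regular_of_dsetup(_le)` at
`A₀ = A ∩ K₀`, `K = ratForm M K₀`, `L = ratForm (M q) K₀` (algebras `H19.algComap`,
`H61.algAlpha`), `O₀ = gaussForm`, `V₁ = gaussOne`, `V₂ = gaussTwoForm`, `x = ⟨x₀, _⟩`. -/
theorem vblock_ratForm (hTG : TwoGauss M q hqM A hA O₁ w) {x₀ : FN M}
    (hx₀ : Fermat.Agent.S34.H30.IsBase M q hqM A hA x₀)
    (K₀ : IntermediateField ℚ Kb) [IsDiscreteValuationRing ↥(A.comap (algebraMap K₀ Kb))]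
    {ϖ : ↥(A.comap (algebraMap K₀ Kb))} (hϖ : Irreducible ϖ) (hx : x₀ ∈ ratForm M K₀) :
    haveI : NeZero q := ⟨hqF.out.ne_zero⟩
    @IsScalarTower ↥(A.comap (algebraMap K₀ Kb)) ↥(ratForm M K₀) ↥(ratForm (M * q) K₀)
      (Fermat.Agent.S18.H19.algComap (A.comap (algebraMap K₀ Kb)) (ratForm M K₀)).toSMul
      (algAlpha M q K₀).toSMul
      (Fermat.Agent.S18.H19.algComap (A.comap (algebraMap K₀ Kb)) (ratForm (M * q) K₀)).toSMul ∧
    @FaithfulSMul ↥(A.comap (algebraMap K₀ Kb)) ↥(ratForm M K₀)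
      (Fermat.Agent.S18.H19.algComap (A.comap (algebraMap K₀ Kb)) (ratForm M K₀)).toSMul ∧
    @FiniteDimensional ↥(ratForm M K₀) ↥(ratForm (M * q) K₀) _ _ (algAlpha M q K₀).toModule ∧
    @Fermat.Agent.S18.H19.DSetup ↥(A.comap (algebraMap K₀ Kb)) _ ↥(ratForm M K₀) _
      (Fermat.Agent.S18.H19.algComap (A.comap (algebraMap K₀ Kb)) (ratForm M K₀))
      (gaussForm M hqM A hA K₀) (⟨x₀, hx⟩ : ↥(ratForm M K₀)) ∧
    (∀ v : ↥(ratForm M K₀),
      @algebraMap ↥(ratForm M K₀) ↥(ratForm (M * q) K₀) _ _ (algAlpha M q K₀) v ∈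
        gaussOne M q O₁ K₀ ↔ v ∈ gaussForm M hqM A hA K₀) ∧
    (∀ v : ↥(ratForm M K₀),
      @algebraMap ↥(ratForm M K₀) ↥(ratForm (M * q) K₀) _ _ (algAlpha M q K₀) v ∈
        gaussTwoForm M q O₁ w K₀ ↔ v ∈ gaussForm M hqM A hA K₀) ∧
    @TwoExt ↥(ratForm M K₀) ↥(ratForm (M * q) K₀) _ _ (algAlpha M q K₀)
      (gaussForm M hqM A hA K₀) (gaussOne M q O₁ K₀) (gaussTwoForm M q O₁ w K₀) ∧
    gaussOne M q O₁ K₀ ≠ gaussTwoForm M q O₁ w K₀ ∧
    @Module.finrank ↥(ratForm M K₀) ↥(ratForm (M * q) K₀) _ _ (algAlpha M q K₀).toModule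
      = q + 1 :=
  haveI : NeZero q := ⟨hqF.out.ne_zero⟩
  ⟨isScalarTower_algAlpha M q K₀ A,
    Fermat.Agent.S34.H78.faithfulSMul_comap A K₀ (ratForm M K₀),
    vblock_finite M q hqM K₀,
    dsetup_of_isBase hx₀ K₀ hx,
    vblock_hc₁ hTG K₀,
    vblock_hc₂ hTG K₀,
    vblock_hT hTG hx₀ K₀ hϖ,
    gaussOne_ne_gaussTwoForm hTG K₀,
    vblock_hdeg M q hqM K₀⟩

end VBlock

end Fermat.Agent.S34.H64
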